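import Fermat.Agent.GS.Inst.Data
import Fermat.Agent.GR.D.Vert.Fin

/-!
# GS-INST, file Chart: `TowerChart` for a base function `t ∈ FF L N1`

* `wint_of_isIntegral`: a monic polynomial with coefficients in `L[x] = Frac(R)[x]`; multiply the
  coefficients by a common denominator `ϖ^m` (`Polynomial.scaleRoots` / `IsIntegral` of `ϖ^m y`).
* `fin`: `Vert.fin_finite` + `GR.D.finiteDimensional_FF_of_transcendental`.
* `cong`, `sep`: `div_mem_gaussO_iff`, `gredFun_add/mul/pow`.
-/

set_option autoImplicit false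
set_option synthInstance.maxHeartbeats 400000

noncomputable section

namespace Fermat.Agent.GS.Inst

open Fermat.Agent.GR Fermat.Agent.GR.E Fermat.Agent.GR.D.Vert ModularCurve IntermediateField

/-- `L = R[1/ϖ]`. -/
theorem Chart_exists_pow_mul_mem {L : Type*} [Field L] {R : ValuationSubring L}
    [IsDiscreteValuationRing R] {ϖ : R} (hϖ : Irreducible ϖ) (r : L) :
    ∃ n : ℕ, (ϖ : L) ^ n * r ∈ R := by
  rcases R.mem_or_inv_mem r with h | h
  · exact ⟨0, by rw [pow_zero, one_mul]; exact h⟩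
  · by_cases hr : r = 0
    · exact ⟨0, by rw [hr, mul_zero]; exact R.zero_mem⟩
    have hne : (⟨r⁻¹, h⟩ : R) ≠ 0 := fun h0 => inv_ne_zero hr (congrArg Subtype.val h0)
    obtain ⟨n, u, hu⟩ := IsDiscreteValuationRing.eq_unit_mul_pow_irreducible hne hϖ
    refine ⟨n, ?_⟩
    have h1 : r⁻¹ = ((u : R) : L) * (ϖ : L) ^ n := by
      have := congrArg Subtype.val hu
      simpa using this
    have h2 : ((u : R) : L) * (((u⁻¹ : Rˣ) : R) : L) = 1 := by
      have h5 : ((((u : R) * ((u⁻¹ : Rˣ) : R) : R)) : L) = ((1 : R) : L) :=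
        congrArg Subtype.val (Units.mul_inv u)
      exact h5
    have h3 : (ϖ : L) ^ n * r = (((u⁻¹ : Rˣ) : R) : L) := by
      have h4 : r * r⁻¹ = 1 := mul_inv_cancel₀ hr
      rw [h1] at h4
      calc (ϖ : L) ^ n * r = (r * (((u : R) : L) * (ϖ : L) ^ n)) * (((u⁻¹ : Rˣ) : R) : L)
            - (ϖ : L) ^ n * r * (((u : R) : L) * (((u⁻¹ : Rˣ) : R) : L) - 1) := by ring
        _ = _ := by rw [h4, h2]; ring
    rw [h3]
    exact ((u⁻¹ : Rˣ) : R).2

theorem Chart_exists_pow_mul_mem_adjoin {L : Type*} [Field L] {R : ValuationSubring L}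
    [IsDiscreteValuationRing R] {F : Type*} [Field F] [Algebra L F] [Algebra R F]
    [IsScalarTower R L F] {ϖ : R} (hϖ : Irreducible ϖ) (x : F) {c : F}
    (hc : c ∈ Algebra.adjoin L ({x} : Set F)) :
    ∃ n : ℕ, algebraMap R F ϖ ^ n * c ∈ Algebra.adjoin R ({x} : Set F) := by
  induction hc using Algebra.adjoin_induction with
  | mem y hy => exact ⟨0, by rw [pow_zero, one_mul]; exact Algebra.subset_adjoin hy⟩
  | algebraMap r =>
    obtain ⟨n, hn⟩ := Chart_exists_pow_mul_mem hϖ r
    refine ⟨n, ?_⟩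
    have : algebraMap R F ϖ ^ n * algebraMap L F r =
        algebraMap R F ⟨(ϖ : L) ^ n * r, hn⟩ := by
      rw [IsScalarTower.algebraMap_apply R L F, IsScalarTower.algebraMap_apply R L F]
      change algebraMap L F (ϖ : L) ^ n * algebraMap L F r = algebraMap L F ((ϖ : L) ^ n * r)
      rw [map_mul, map_pow]
    rw [this]
    exact Subalgebra.algebraMap_mem _ _
  | add a b _ _ ha hb =>
    obtain ⟨n, hn⟩ := ha
    obtain ⟨n', hn'⟩ := hb
    refine ⟨n + n', ?_⟩
    have : algebraMap R F ϖ ^ (n + n') * (a + b) =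
        algebraMap R F ϖ ^ n' * (algebraMap R F ϖ ^ n * a) +
          algebraMap R F ϖ ^ n * (algebraMap R F ϖ ^ n' * b) := by
      rw [pow_add]; ring
    rw [this]
    exact add_mem (mul_mem (pow_mem (Subalgebra.algebraMap_mem _ _) _) hn)
      (mul_mem (pow_mem (Subalgebra.algebraMap_mem _ _) _) hn')
  | mul a b _ _ ha hb =>
    obtain ⟨n, hn⟩ := ha
    obtain ⟨n', hn'⟩ := hb
    refine ⟨n + n', ?_⟩
    have : algebraMap R F ϖ ^ (n + n') * (a * b) =
        (algebraMap R F ϖ ^ n * a) * (algebraMap R F ϖ ^ n' * b) := by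
      rw [pow_add]; ring
    rw [this]
    exact mul_mem hn hn'

/-- clearing denominators. -/
theorem wint_of_isIntegral {L : Type*} [Field L] {R : ValuationSubring L}
    [IsDiscreteValuationRing R] {F : Type*} [Field F] [Algebra L F] [Algebra R F]
    [IsScalarTower R L F] {ϖ : R} (hϖ : Irreducible ϖ) {x y : F}
    (h : IsIntegral (Algebra.adjoin L ({x} : Set F)) y) :
    ∃ m : ℕ, algebraMap R F ϖ ^ m * y ∈ chart R ({x} : Set F) := by
  classical
  obtain ⟨p, hmonic, hroot⟩ := h
  set s : F := algebraMap R F ϖ with hs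
  have hsA : s ∈ Algebra.adjoin R ({x} : Set F) := Subalgebra.algebraMap_mem _ _
  have hcoeff : ∀ i, ∃ n : ℕ, s ^ n * (p.coeff i : F) ∈ Algebra.adjoin R ({x} : Set F) :=
    fun i => Chart_exists_pow_mul_mem_adjoin hϖ x (p.coeff i).2
  choose n hn using hcoeff
  set M : ℕ := ∑ i ∈ Finset.range (p.natDegree + 1), n i with hM
  have hnM : ∀ i ≤ p.natDegree, n i ≤ M := fun i hi =>
    Finset.single_le_sum (f := n) (fun _ _ => Nat.zero_le _)
      (Finset.mem_range.mpr (Nat.lt_succ_of_le hi))
  refine ⟨M, ?_⟩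
  set Q : Polynomial F :=
    (p.map (algebraMap (Algebra.adjoin L ({x} : Set F)) F)).scaleRoots (s ^ M) with hQ
  have hqmonic : Q.Monic := (Polynomial.monic_scaleRoots_iff _).mpr (hmonic.map _)
  have hqroot : Q.eval (s ^ M * y) = 0 := by
    rw [hQ, Polynomial.scaleRoots_eval_mul, Polynomial.eval_map, hroot, mul_zero]
  have hqcoeff : ∀ i, Q.coeff i ∈ Algebra.adjoin R ({x} : Set F) := by
    intro i
    rw [hQ, Polynomial.coeff_scaleRoots, Polynomial.coeff_map, hmonic.natDegree_map]
    by_cases hi : i < p.natDegree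
    · have hle : n i ≤ M * (p.natDegree - i) := by
        calc n i ≤ M := hnM i hi.le
          _ = M * 1 := (mul_one M).symm
          _ ≤ M * (p.natDegree - i) := Nat.mul_le_mul_left M (Nat.one_le_iff_ne_zero.mpr (by omega))
      obtain ⟨k, hk⟩ := Nat.exists_eq_add_of_le hle
      have : (s ^ M) ^ (p.natDegree - i) = s ^ k * s ^ n i := by
        rw [← pow_mul, hk, pow_add, mul_comm]
      rw [this, Subalgebra.algebraMap_def, Algebra.algebraMap_self_apply,
        show (p.coeff i : F) * (s ^ k * s ^ n i) = s ^ k * (s ^ n i * (p.coeff i : F))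
          by ring]
      exact mul_mem (pow_mem hsA k) (hn i)
    · rcases (not_lt.mp hi).lt_or_eq with hlt | heq
      · rw [Polynomial.coeff_eq_zero_of_natDegree_lt hlt, map_zero, zero_mul]
        exact zero_mem _
      · rw [← heq, hmonic.coeff_natDegree, map_one, one_mul, Nat.sub_self, pow_zero]
        exact one_mem _
  have hlifts : Q ∈ Polynomial.lifts (algebraMap (Algebra.adjoin R ({x} : Set F)) F) :=
    (Polynomial.lifts_iff_coeff_lifts Q).mpr fun i => ⟨⟨Q.coeff i, hqcoeff i⟩, rfl⟩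
  obtain ⟨Q', hQ'Q, -, hQ'monic⟩ := Polynomial.lifts_and_natDegree_eq_and_monic hlifts hqmonic
  refine mem_chart.mpr ⟨Q', hQ'monic, ?_⟩
  rw [Polynomial.eval₂_eq_eval_map, hQ'Q, hqroot]

variable {L : Type} [Field L] [CharZero L] {R : ValuationSubring L} [IsDiscreteValuationRing R]
variable {q N1 : ℕ} [NeZero q] [NeZero N1] [NeZero (q * N1)]

theorem fin_of_transcendental (t : FF L N1) (ht : Transcendental L t) :
    Module.Finite (Algebra.adjoin R ({algebraMap (FF L N1) (FF L (q * N1)) t} : Set (FF L (q * N1))))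
      (integralClosure
        (Algebra.adjoin R ({algebraMap (FF L N1) (FF L (q * N1)) t} : Set (FF L (q * N1))))
        (FF L (q * N1))) := by
  have ht' : Transcendental L (algebraMap (FF L N1) (FF L (q * N1)) t) :=
    (transcendental_algebraMap_iff (algebraMap (FF L N1) (FF L (q * N1))).injective).mpr ht
  haveI := GR.D.finiteDimensional_FF_of_transcendental L (q * N1) ht'
  exact fin_finite (R := R) (L := L) _ ht'

/-- (I3) -/
theorem towerChart {ϖ : R} (hϖ : Irreducible ϖ)
    {w : FF L (q * N1) ≃ₐ[L] FF L (q * N1)} (hw : IsWq L q N1 w) (t : FF L N1)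
    (hgood : GoodChart ϖ (gaussO R N1) (chart R ({t} : Set (FF L N1))))
    (ht : Transcendental L t) (hmem : t ∈ gaussO R N1)
    (hcong : gredFun R (qExpand L q (t : LaurentSeries L)) = gredFun R (t : LaurentSeries L) ^ q)
    (hsep : gredFun R (t : LaurentSeries L) ≠ gredFun R (t : LaurentSeries L) ^ (q ^ 2))
    (hwint : IsIntegral
      (Algebra.adjoin L ({algebraMap (FF L N1) (FF L (q * N1)) t} : Set (FF L (q * N1))))
      (w (algebraMap (FF L N1) (FF L (q * N1)) t))) :
    TowerChart ϖ (gaussO R N1) (gaussO R (q * N1)) (w.restrictScalars R) q t := by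
  have htG : IsGInt R (t : LaurentSeries L) := mem_gaussO.mp hmem
  have hsub : ∀ {x y : LaurentSeries L}, IsGInt R x → IsGInt R y →
      gredFun R (x - y) = gredFun R x - gredFun R y := fun {x y} hx hy => by
    have h0 : IsGInt R (x - y) := by
      rw [sub_eq_add_neg]
      exact hx.add hy.neg
    have h1 := gredFun_add h0 hy
    rw [sub_add_cancel] at h1
    rw [h1, add_sub_cancel_right]
  refine ⟨hgood, wint_of_isIntegral hϖ hwint, ?_, ?_, fin_of_transcendental t ht⟩
  · have hA : w (algebraMap (FF L N1) (FF L (q * N1)) t) ∈ gaussO R (q * N1) := by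
      rw [mem_gaussO, hw.onF1]
      exact isGInt_qExpand q htG
    have hB : algebraMap (FF L N1) (FF L (q * N1)) t ^ q ∈ gaussO R (q * N1) :=
      pow_mem ((mem_gaussO_algebraMap_iff t).mpr hmem) q
    change (w (algebraMap (FF L N1) (FF L (q * N1)) t) -
      algebraMap (FF L N1) (FF L (q * N1)) t ^ q) / algebraMap R (FF L (q * N1)) ϖ ∈ _
    rw [div_mem_gaussO_iff (q * N1) hϖ (sub_mem hA hB), AddSubgroupClass.coe_sub,
      IntermediateField.coe_pow, hw.onF1, coe_algebraMap_FF,
      hsub (isGInt_qExpand q htG) (htG.pow q), gredFun_pow htG, hcong, sub_self]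
  · rw [div_mem_gaussO_iff N1 hϖ (sub_mem hmem (pow_mem hmem _)), AddSubgroupClass.coe_sub,
      IntermediateField.coe_pow, hsub htG (htG.pow _), gredFun_pow htG, sub_eq_zero]
    exact hsep

end Fermat.Agent.GS.Inst
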