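import Fermat.Agent.GS.Inst.Chart
import Fermat.Agent.GS.Inst.Wint.Descent
import Fermat.Agent.GR.D.Top.Param

/-!
# GS-INST, file ChartH: the two `TowerChart`s for `t = baseFn L H`, `t⁻¹`

Apply `towerChart`.  `𝒪1 = gaussO R N1` (both have the same `spec`: `M.spec`, `Vert.gaussO_spec`; ext), so
`hgood` is `M.good0 / M.good1`.  `ht`: `IsGen.transcendental` (+ `S24.Zeros.transcendental_inv`).  `hmem`: `isGInt_baseFn`; for
`t⁻¹`: `IsGInt.inv` (`gredFun t = baseFn 𝕜 H ≠ 0`).  `hcong`: `gredFun_qExpand`, `gredFun_baseFn'`, `qExpand_baseFn`;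
for `t⁻¹`: `gredFun_inv`, `map_inv₀`, `inv_pow`.  `hsep`: orders (`IsGen.order_baseFn 𝕜`: `-1 ≠ -q²`; for the
inverse `1 ≠ q²`).  `hwint`: `isIntegral_w`, `isIntegral_w_inv` (the element `algebraMap t` is
`⟨baseFn L H, _⟩` by `Subtype.ext`; `map_inv₀`).  `IsWq` from `isWq_of_isWQ` with
`ι := S24.iotaC.comp (algebraMap L Qb)`.
-/

set_option autoImplicit false
set_option synthInstance.maxHeartbeats 400000

noncomputable section

namespace Fermat.Agent.GS.Inst

open Fermat.Agent.GR Fermat.Agent.GR.E Fermat.Agent.GR.D.Vert ModularCurve IntermediateField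

variable {L : Type} [Field L] [CharZero L] [Algebra L Qb] [Algebra.IsAlgebraic L Qb]
variable {R : ValuationSubring L} [IsDiscreteValuationRing R]
variable {q N1 : ℕ} [NeZero q] [NeZero N1] [NeZero (q * N1)]

/-- the two `TowerChart`s. -/
theorem towerChart_baseFn {r : ℕ} [NeZero r] {H : LaurentSeries ℤ} (hH : IsHaupt r H)
    (hq : q.Prime) (hqN : ¬ q ∣ N1) (hrN : r ∣ N1) [CharP (IsLocalRing.ResidueField R) q]
    (hm1 : baseFn L H ∈ FF L N1) {𝒪1 : ValuationSubring (FF L N1)}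
    (M : ModelData R N1 ⟨baseFn L H, hm1⟩ 𝒪1)
    {w : FF L (q * N1) ≃ₐ[L] FF L (q * N1)} (hw : IsWQ L q N1 w) {ϖ : R} (hϖ : Irreducible ϖ) :
    TowerChart ϖ (gaussO R N1) (gaussO R (q * N1)) (w.restrictScalars R) q
      (⟨baseFn L H, hm1⟩ : FF L N1) ∧
    TowerChart ϖ (gaussO R N1) (gaussO R (q * N1)) (w.restrictScalars R) q
      (⟨baseFn L H, hm1⟩ : FF L N1)⁻¹ := by
  set t : FF L N1 := ⟨baseFn L H, hm1⟩ with ht_def
  have hct : (t : LaurentSeries L) = baseFn L H := rfl
  have h𝒪 : 𝒪1 = gaussO R N1 := by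
    ext u
    rw [M.spec, gaussO_spec]
  subst h𝒪
  have hWq : IsWq L q N1 w :=
    isWq_of_isWQ (Fermat.Agent.S24.iotaC.comp (algebraMap L Qb)) hq hqN hw
  have htr : Transcendental L t := fun h =>
    hH.toIsGen.transcendental L (IntermediateField.isAlgebraic_iff.mp h)
  have hG : IsGInt R (baseFn L H) := isGInt_baseFn H
  have hord : (baseFn (IsLocalRing.ResidueField R) H).order = -1 :=
    hH.toIsGen.order_baseFn (IsLocalRing.ResidueField R)
  have hb0 : baseFn (IsLocalRing.ResidueField R) H ≠ 0 := by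
    intro h
    rw [h, HahnSeries.order_zero] at hord
    exact absurd hord (by norm_num)
  have hg0 : gredFun R (baseFn L H) ≠ 0 := by
    rw [gredFun_baseFn']
    exact hb0
  have hsep0 : baseFn (IsLocalRing.ResidueField R) H ≠
      baseFn (IsLocalRing.ResidueField R) H ^ (q ^ 2) := by
    intro h
    have h1 := congrArg HahnSeries.order h
    rw [HahnSeries.order_pow, hord] at h1
    have h2 : (q ^ 2 : ℕ) = 1 := by
      have : ((q ^ 2 : ℕ) : ℤ) = 1 := by
        rw [nsmul_eq_mul] at h1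
        linarith
      exact_mod_cast this
    have h3 : 1 < q ^ 2 := Nat.one_lt_pow (by norm_num) hq.one_lt
    omega
  have hcong0 : gredFun R (qExpand L q (baseFn L H)) = gredFun R (baseFn L H) ^ q := by
    rw [gredFun_qExpand q hG, gredFun_baseFn', qExpand_baseFn q hq]
  have hm : baseFn L H ∈ FF L (q * N1) := FF_le L q N1 hm1
  have halg : algebraMap (FF L N1) (FF L (q * N1)) t = ⟨baseFn L H, hm⟩ :=
    Subtype.ext (by rw [coe_algebraMap_FF])
  refine ⟨towerChart hϖ hWq t (M.good0 ϖ hϖ) htr (mem_gaussO.2 hG) hcong0 ?_ ?_,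
    towerChart hϖ hWq t⁻¹ (M.good1 ϖ hϖ) (Fermat.Agent.S24.Zeros.transcendental_inv htr) ?_ ?_ ?_ ?_⟩
  · rw [hct, gredFun_baseFn']
    exact hsep0
  · rw [halg]
    exact isIntegral_w hH hq hqN hrN hw hm
  · rw [mem_gaussO, IntermediateField.coe_inv, hct]
    exact hG.inv hg0
  · rw [IntermediateField.coe_inv, hct, map_inv₀, gredFun_inv (isGInt_qExpand q hG)
      (by rw [hcong0]; exact pow_ne_zero _ hg0), gredFun_inv hG hg0, hcong0, inv_pow]
  · rw [IntermediateField.coe_inv, hct, gredFun_inv hG hg0, gredFun_baseFn', inv_pow]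
    intro h
    exact hsep0 (inv_injective h)
  · rw [map_inv₀, halg]
    exact isIntegral_w_inv hH hq hqN hrN hw hm

end Fermat.Agent.GS.Inst
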