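import Fermat.Agent.GS.Inst.Setup
import Fermat.Agent.GR.D.Top.Param

/-!
# GS-INST, file RedQ: the reduction map `gredFun` of `GR/D/Vert/Gauss.lean` and `qExpand q` (`t ↦ t^q`), series with integer coefficients

Everything is proved first for `x = embL R L y` (`y : LaurentSeries R`), then for
`x = y / s` via `gredFun_eq` (`IsGInt R x` unfolds to `∃ s y, redL R s ≠ 0 ∧ embL R L s * x = embL R L y`).
-/

set_option autoImplicit false
set_option synthInstance.maxHeartbeats 400000

noncomputable section

namespace Fermat.Agent.GS.Inst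

open Fermat.Agent.GR Fermat.Agent.GR.E Fermat.Agent.GR.D.Vert Fermat.Agent.S28 ModularCurve

variable {L : Type*} [Field L] {R : ValuationSubring L} [IsDiscreteValuationRing R]

local notation "𝕜" => IsLocalRing.ResidueField R

theorem isGInt_qExpand (q : ℕ) [NeZero q] {x : LaurentSeries L} (hx : IsGInt R x) :
    IsGInt R (qExpand L q x) := by
  obtain ⟨s, y, hs, hy⟩ := hx
  refine ⟨qExpand R q s, qExpand R q y, ?_, ?_⟩
  · rw [coeffMap_qExpand]
    exact (map_ne_zero_iff _ (qExpand_injective q)).2 hs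
  · rw [coeffMap_qExpand, coeffMap_qExpand, ← map_mul, hy]

theorem gredFun_qExpand (q : ℕ) [NeZero q] {x : LaurentSeries L} (hx : IsGInt R x) :
    gredFun R (qExpand L q x) = qExpand 𝕜 q (gredFun R x) := by
  obtain ⟨s, y, hs, hy⟩ := hx
  have hs' : redL R (qExpand R q s) ≠ 0 := by
    rw [coeffMap_qExpand]
    exact (map_ne_zero_iff _ (qExpand_injective q)).2 hs
  have hy' : embL R L (qExpand R q s) * qExpand L q x = embL R L (qExpand R q y) := by
    rw [coeffMap_qExpand, coeffMap_qExpand, ← map_mul, hy]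
  rw [gredFun_eq hs' hy', gredFun_eq hs hy, map_div₀, coeffMap_qExpand, coeffMap_qExpand]

theorem RedQ_qExpand_ofPowerSeries {k : Type*} [CommRing k] (r : ℕ) [NeZero r]
    (p : PowerSeries k) :
    qExpand k r (HahnSeries.ofPowerSeries ℤ k p) =
      HahnSeries.ofPowerSeries ℤ k (p.expand r (NeZero.ne r)) := by
  have hr : (0 : ℤ) < r := by exact_mod_cast Nat.pos_of_ne_zero (NeZero.ne r)
  ext n
  by_cases hn : (r : ℤ) ∣ n
  · obtain ⟨m, rfl⟩ := hn
    rw [qExpand_coeff_mul]
    rcases le_or_gt 0 m with hm | hm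
    · lift m to ℕ using hm
      rw [HahnSeries.ofPowerSeries_apply_coeff, show (r : ℤ) * (m : ℤ) = ((r * m : ℕ) : ℤ) by
        push_cast; ring, HahnSeries.ofPowerSeries_apply_coeff, PowerSeries.coeff_expand_mul]
    · rw [ofPowerSeries_coeff_of_neg _ hm, ofPowerSeries_coeff_of_neg _ (by nlinarith)]
  · rw [qExpand_coeff_of_not_dvd r _ hn]
    rcases le_or_gt 0 n with hn0 | hn0
    · lift n to ℕ using hn0
      rw [HahnSeries.ofPowerSeries_apply_coeff, PowerSeries.coeff_expand_of_not_dvd]
      exact fun h => hn (by exact_mod_cast h)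
    · rw [ofPowerSeries_coeff_of_neg _ hn0]

theorem qExpand_coeffMap_frobenius {k : Type*} [Field k] (q : ℕ) [NeZero q] [Fact q.Prime]
    [CharP k q] (x : LaurentSeries k) : qExpand k q (coeffMap (frobenius k q) x) = x ^ q := by
  have hpow : x.powerSeriesPart ^ q =
      ((x.powerSeriesPart).map (frobenius k q)).expand q (NeZero.ne q) := by
    rw [← PowerSeries.map_expand]
    exact (MvPowerSeries.map_frobenius_expand (σ := Unit) (R := k) q (NeZero.ne q)
      (f := x.powerSeriesPart)).symm
  conv_lhs => rw [← LaurentSeries.single_order_mul_powerSeriesPart x]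
  conv_rhs => rw [← LaurentSeries.single_order_mul_powerSeriesPart x]
  rw [map_mul, map_mul, coeffMap_single, map_one, qExpand_single, coeffMap_ofPowerSeries,
    RedQ_qExpand_ofPowerSeries, mul_pow, HahnSeries.single_pow, one_pow, ← map_pow, hpow,
    nsmul_eq_mul]

theorem qExpand_baseFn {k : Type*} [Field k] (q : ℕ) [NeZero q] (hq : q.Prime) [CharP k q]
    (H : LaurentSeries ℤ) : qExpand k q (baseFn k H) = baseFn k H ^ q := by
  haveI : Fact q.Prime := ⟨hq⟩
  rw [← qExpand_coeffMap_frobenius]
  congr 1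
  unfold baseFn
  rw [coeffMap_coeffMap, RingHom.ext_int ((frobenius k q).comp (Int.castRingHom k))
    (Int.castRingHom k)]

theorem isGInt_baseFn (H : LaurentSeries ℤ) : IsGInt R (baseFn L H) := by
  rw [D.Top.baseFn_eq_embL R]
  exact isGInt_emb _

theorem gredFun_baseFn' (H : LaurentSeries ℤ) : gredFun R (baseFn L H) = baseFn 𝕜 H := by
  exact D.Top.gredFun_baseFn R H

theorem baseFn_jqModC (K : Type*) [Field K] : baseFn K (jqModC ℤ) = jqModC K := by
  unfold baseFn
  exact ModularCurve.coeffMap_jqModC _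

end Fermat.Agent.GS.Inst
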