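import Fermat.Agent.GS.Inst.Setup

/-!
# GS-INST, file RedV: the reduction map `gredFun` of `GR/D/Vert/Gauss.lean` and the valuation: powers of the uniformizer

Everything is proved first for `x = embL R L y` (`y : LaurentSeries R`), then for
`x = y / s` via `gredFun_eq` (`IsGInt R x` unfolds to `∃ s y, redL R s ≠ 0 ∧ embL R L s * x = embL R L y`).
-/

set_option autoImplicit false
set_option synthInstance.maxHeartbeats 400000

noncomputable section

namespace Fermat.Agent.GS.Inst

open Fermat.Agent.GR Fermat.Agent.GR.E Fermat.Agent.GR.D.Vert Fermat.Agent.S28 ModularCurve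

variable {L : Type*} [Field L] {R : ValuationSubring L} [IsDiscreteValuationRing R]

local notation "𝕜" => IsLocalRing.ResidueField R

theorem exists_pow_mul_mem (N : ℕ) {ϖ : R} (hϖ : Irreducible ϖ) (x : FF L N) :
    ∃ m : ℕ, algebraMap R (FF L N) ϖ ^ m * x ∈ gaussO R N := by
  rcases isGInt_or_inv_FF R N x with h | h
  · exact ⟨0, by rw [pow_zero, one_mul]; exact h⟩
  · by_cases hx : x = 0
    · exact ⟨0, by rw [hx, mul_zero]; exact (gaussO R N).zero_mem⟩
    obtain ⟨s, y, hs, hy⟩ := h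
    have hx' : (x : LaurentSeries L) ≠ 0 := fun h0 => hx (Subtype.ext h0)
    rw [IntermediateField.coe_inv] at hy
    have hy0 : y ≠ 0 := by
      rintro rfl
      rw [map_zero] at hy
      rcases mul_eq_zero.mp hy with h | h
      · exact hs (by rw [embL_injective R L (h.trans (map_zero _).symm), map_zero])
      · exact inv_ne_zero hx' h
    obtain ⟨m, y', rfl, hy'⟩ := exists_eq_C_pow_mul hϖ hy0
    refine ⟨m, ?_⟩
    rw [mem_gaussO, IntermediateField.coe_mul, IntermediateField.coe_pow, coe_algebraMap_C]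
    refine ⟨y', s, hy', ?_⟩
    have hC : embL R L (HahnSeries.C ϖ) = HahnSeries.C (algebraMap R L ϖ) := coeffMap_C _ _
    rw [map_mul, map_pow, hC] at hy
    have h1 : embL R L s = HahnSeries.C (algebraMap R L ϖ) ^ m * embL R L y' * (x : LaurentSeries L) := by
      rw [← hy, mul_assoc, inv_mul_cancel₀ hx', mul_one]
    rw [h1]
    ring

theorem exists_div_pow_not_mem (N : ℕ) {ϖ : R} (hϖ : Irreducible ϖ) (x : FF L N) (hx : x ≠ 0) :
    ∃ a : ℕ, x / algebraMap R (FF L N) ϖ ^ a ∉ gaussO R N := by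
  obtain ⟨m, hm⟩ := exists_pow_mul_mem N hϖ x⁻¹
  refine ⟨m + 1, fun h => ?_⟩
  have G := gaussRing R N hϖ
  apply G.inv_not_mem
  have hP := G.ne_zero
  have h1 := (gaussO R N).mul_mem _ _ hm h
  have h2 : algebraMap R (FF L N) ϖ ^ m * x⁻¹ * (x / algebraMap R (FF L N) ϖ ^ (m + 1)) =
      (algebraMap R (FF L N) ϖ)⁻¹ := by
    generalize algebraMap R (FF L N) ϖ = P at hP
    rw [pow_succ]
    field_simp
  rwa [h2] at h1

theorem div_mem_gaussO_iff (N : ℕ) {ϖ : R} (hϖ : Irreducible ϖ) {x : FF L N}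
    (hx : x ∈ gaussO R N) :
    x / algebraMap R (FF L N) ϖ ∈ gaussO R N ↔ gredFun R (x : LaurentSeries L) = 0 := by
  rw [mem_gaussO, coe_div_algebraMap, ← gredFun_eq_zero_iff hϖ (mem_gaussO.1 hx)]

end Fermat.Agent.GS.Inst
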