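import Fermat.Agent.GS.Inst.Setup
import Fermat.Agent.GS.WQ

/-!
# GS-INST, file Wq: from the interface predicate `GS.IsWQ` to `IsWq`, uniqueness of `w_q`

Tools: `GT.EMB.algHom_ext_gen`, `GT.EMB.ringHom_ext_gen`, `GT.EMB.FF_induction`, `GT.EMB.wQ_gen`,
`GT.EMB.wQ_wQ`, `GT.EMB.wQ_of_mem`, `GT.EMB.mapFF_wQ`, `GT.EMB.alIdx_mul`.
-/

set_option autoImplicit false
set_option synthInstance.maxHeartbeats 400000

noncomputable section

namespace Fermat.Agent.GS.Inst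

open Fermat.Agent.GR Fermat.Agent.GR.E ModularCurve IntermediateField

variable {L : Type} [Field L] {q N1 : ℕ} [NeZero q] [NeZero N1] [NeZero (q * N1)]

/-- `GT.EMB.wQ` satisfies the interface predicate. -/
theorem isWQ_wQ (ι : L →+* ℂ) (hq : q.Prime) (hqN : ¬ q ∣ N1) : IsWQ L q N1 (GT.EMB.wQ L q N1) :=
  GS.isWQ_wQ ι ((Nat.Prime.coprime_iff_not_dvd hq).2 hqN)

/-- uniqueness. -/
theorem eq_wQ_of_isWQ (ι : L →+* ℂ) (hq : q.Prime) (hqN : ¬ q ∣ N1)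
    {w : FF L (q * N1) ≃ₐ[L] FF L (q * N1)} (hw : IsWQ L q N1 w) : w = GT.EMB.wQ L q N1 :=
  hw.eq_wQ ι ((Nat.Prime.coprime_iff_not_dvd hq).2 hqN)

theorem isWq_of_isWQ (ι : L →+* ℂ) (hq : q.Prime) (hqN : ¬ q ∣ N1)
    {w : FF L (q * N1) ≃ₐ[L] FF L (q * N1)} (hw : IsWQ L q N1 w) : IsWq L q N1 w := by
  have hcop : q.Coprime N1 := (Nat.Prime.coprime_iff_not_dvd hq).2 hqN
  refine ⟨hw.invol ι hcop, fun x => ?_⟩
  rw [hw.apply_of_mem ι hcop _ (by rw [coe_algebraMap_FF]; exact x.2), coe_algebraMap_FF]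

/-- `w` commutes with the Galois action on the coefficients. -/
theorem mapFFEquiv_comm (ι : L →+* ℂ) (hq : q.Prime) (hqN : ¬ q ∣ N1)
    {w : FF L (q * N1) ≃ₐ[L] FF L (q * N1)} (hw : IsWQ L q N1 w) (σ : L ≃+* L)
    (x : FF L (q * N1)) : mapFFEquiv σ (q * N1) (w x) = w (mapFFEquiv σ (q * N1) x) :=
  hw.mapFF_comm ι (σ : L →+* L) ((Nat.Prime.coprime_iff_not_dvd hq).2 hqN) hw x

/-- `w` commutes with extension of the constants. -/
theorem mapFF_comm {L' : Type} [Field L'] (ι' : L' →+* ℂ) (φ : L →+* L') (hq : q.Prime)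
    (hqN : ¬ q ∣ N1) {w : FF L (q * N1) ≃ₐ[L] FF L (q * N1)} (hw : IsWQ L q N1 w)
    (x : FF L (q * N1)) :
    mapFF φ (q * N1) (w x) = GT.EMB.wQ L' q N1 (mapFF φ (q * N1) x) :=
  hw.mapFF_comm ι' φ ((Nat.Prime.coprime_iff_not_dvd hq).2 hqN)
    (GS.isWQ_wQ ι' ((Nat.Prime.coprime_iff_not_dvd hq).2 hqN)) x

omit [NeZero N1] [NeZero (q * N1)] in
/-- `w y = j`, `w j = y`. -/
theorem IsWq.map_yF {L : Type*} [Field L] {w : FF L (q * N1) ≃ₐ[L] FF L (q * N1)}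
    (hw : IsWq L q N1 w) : ((w (yF L q N1) : FF L (q * N1)) : LaurentSeries L) = jqModC L := by
  let j1 : FF L N1 := ⟨jqModC L, jqModC_mem_full L N1⟩
  have h1 : w (algebraMap (FF L N1) (FF L (q * N1)) j1) = yF L q N1 :=
    Subtype.ext (by rw [hw.onF1, coe_yF])
  rw [← h1, hw.invol, coe_algebraMap_FF]

end Fermat.Agent.GS.Inst
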