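import Fermat.Agent.GS.Inst.Ind
import Fermat.Agent.GS.Inst.RedQ
import Fermat.Agent.GS.Inst.RedV
import Fermat.Agent.GS.Inst.Wq

/-!
# GS-INST, file Coef: consequences of (Ind) for `z = ∑_{s ≤ q} c_s y^s`, `c_s ∈ F1 = FF L N1`

`mem_of_sum_mem`.  Suppose some `c_s ∉ 𝒪1`.  Take `m ≥ 1` minimal with `ϖ^m c_s ∈ 𝒪1` for all `s`
(`exists_pow_mul_mem`).  `c'_s = ϖ^m c_s`, `z' = ϖ^m z`: `z'/ϖ ∈ 𝒪`, `w z'/ϖ ∈ 𝒪`.  Reduce
(`gredFun`, `gredFun_sum`, `gredFun_mul`, `gredFun_qExpand`, `gredFun_baseFn'`, `qExpand_baseFn`,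
`baseFn_jqModC`): with `γ_s = gredFun c'_s`:
`∑ γ_s (J^q)^s = 0` (as `gredFun y = qExpand q J = J^q`) and, since
`w z' = ∑ (qExpand q c'_s) j^s` (`IsWq.onF1`, `IsWq.map_yF`), `∑ qExpand q γ_s J^s = 0`.
`ind_core` gives `γ = 0`, i.e. `c'_s / ϖ ∈ 𝒪1` for all `s` (`div_mem_gaussO_iff`): contradiction.

`linearIndependent_yF`: if `∑ c_s y^s = 0` then also `∑ (c_s/ϖ^a) y^s = 0` for all `a`, so
`c_s / ϖ^a ∈ 𝒪1` for all `a`, so `c_s = 0` (`exists_div_pow_not_mem`).
-/

set_option autoImplicit false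
set_option synthInstance.maxHeartbeats 400000

noncomputable section

namespace Fermat.Agent.GS.Inst

open Fermat.Agent.GR Fermat.Agent.GR.E Fermat.Agent.GR.D.Vert ModularCurve IntermediateField

variable {L : Type*} [Field L] {R : ValuationSubring L} [IsDiscreteValuationRing R]
variable {q N1 : ℕ} [NeZero q]

/-! ### the series level -/

theorem Coef_isGInt_J : IsGInt R (jqModC L) := by
  rw [← baseFn_jqModC L]
  exact isGInt_baseFn _

theorem Coef_gredFun_J : gredFun R (jqModC L) = jqModC (IsLocalRing.ResidueField R) := by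
  rw [← baseFn_jqModC L, gredFun_baseFn', baseFn_jqModC]

theorem Coef_isGInt_Y : IsGInt R (qExpand L q (jqModC L)) := isGInt_qExpand q Coef_isGInt_J

theorem Coef_gredFun_Y (hq : q.Prime) [CharP (IsLocalRing.ResidueField R) q] :
    gredFun R (qExpand L q (jqModC L)) = jqModC (IsLocalRing.ResidueField R) ^ q := by
  rw [gredFun_qExpand q Coef_isGInt_J, Coef_gredFun_J,
    ← baseFn_jqModC (IsLocalRing.ResidueField R), qExpand_baseFn q hq]

theorem Coef_isGInt_C (r : R) : IsGInt R (HahnSeries.C (algebraMap R L r) : LaurentSeries L) := by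
  rw [← coeffMap_C]
  exact isGInt_emb _

/-- one step: divide all the coefficients by the uniformizer. -/
theorem Coef_step (hq : q.Prime) [CharP (IsLocalRing.ResidueField R) q] {ϖ : R}
    (hϖ : Irreducible ϖ) (D : Fin (q + 1) → LaurentSeries L) (hD : ∀ s, IsGInt R (D s))
    (h1 : IsGInt R ((∑ s, D s * qExpand L q (jqModC L) ^ (s : ℕ)) /
      HahnSeries.C (algebraMap R L ϖ)))
    (h2 : IsGInt R ((∑ s, qExpand L q (D s) * jqModC L ^ (s : ℕ)) /
      HahnSeries.C (algebraMap R L ϖ))) :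
    ∀ s, IsGInt R (D s / HahnSeries.C (algebraMap R L ϖ)) := by
  have hY : IsGInt R (qExpand L q (jqModC L)) := Coef_isGInt_Y
  have hJ : IsGInt R (jqModC L) := Coef_isGInt_J
  have t1 : ∀ s ∈ (Finset.univ : Finset (Fin (q + 1))),
      IsGInt R (D s * qExpand L q (jqModC L) ^ (s : ℕ)) := fun s _ => (hD s).mul (hY.pow _)
  have t2 : ∀ s ∈ (Finset.univ : Finset (Fin (q + 1))),
      IsGInt R (qExpand L q (D s) * jqModC L ^ (s : ℕ)) :=
    fun s _ => (isGInt_qExpand q (hD s)).mul (hJ.pow _)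
  have e1 := (gredFun_eq_zero_iff hϖ (IsGInt.sum _ _ t1)).2 h1
  have e2 := (gredFun_eq_zero_iff hϖ (IsGInt.sum _ _ t2)).2 h2
  rw [gredFun_sum _ _ t1] at e1
  rw [gredFun_sum _ _ t2] at e2
  have e1' : ∑ s : Fin (q + 1), gredFun R (D s) *
      (jqModC (IsLocalRing.ResidueField R) ^ q) ^ (s : ℕ) = 0 := by
    rw [← e1]
    refine Finset.sum_congr rfl fun s _ => ?_
    rw [gredFun_mul (hD s) (hY.pow _), gredFun_pow hY, Coef_gredFun_Y hq]
  have e2' : ∑ s : Fin (q + 1), qExpand (IsLocalRing.ResidueField R) q (gredFun R (D s)) *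
      jqModC (IsLocalRing.ResidueField R) ^ (s : ℕ) = 0 := by
    rw [← e2]
    refine Finset.sum_congr rfl fun s _ => ?_
    rw [gredFun_mul (isGInt_qExpand q (hD s)) (hJ.pow _), gredFun_pow hJ, Coef_gredFun_J,
      gredFun_qExpand q (hD s)]
  have h0 := ind_core q hq (fun s => gredFun R (D s)) e1' e2'
  intro s
  exact (gredFun_eq_zero_iff hϖ (hD s)).1 (congrFun h0 s)

/-- the induction on the exponent of the common denominator. -/
theorem Coef_series (hq : q.Prime) [CharP (IsLocalRing.ResidueField R) q] {ϖ : R}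
    (hϖ : Irreducible ϖ) (m : ℕ) (c : Fin (q + 1) → LaurentSeries L)
    (hc : ∀ s, IsGInt R (HahnSeries.C (algebraMap R L ϖ) ^ m * c s))
    (h1 : IsGInt R (∑ s, c s * qExpand L q (jqModC L) ^ (s : ℕ)))
    (h2 : IsGInt R (∑ s, qExpand L q (c s) * jqModC L ^ (s : ℕ))) :
    ∀ s, IsGInt R (c s) := by
  have hne := embL_C_ne_zero (L := L) hϖ
  have hP : IsGInt R (HahnSeries.C (algebraMap R L ϖ) : LaurentSeries L) := Coef_isGInt_C ϖ
  induction m with
  | zero =>
    intro s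
    have := hc s
    rwa [pow_zero, one_mul] at this
  | succ m ih =>
    apply ih
    have key := Coef_step hq hϖ (fun s => HahnSeries.C (algebraMap R L ϖ) ^ (m + 1) * c s) hc ?_ ?_
    · intro s
      have := key s
      rwa [pow_succ, mul_assoc, mul_comm (HahnSeries.C (algebraMap R L ϖ)) (c s), ← mul_assoc,
        mul_div_assoc, div_self hne, mul_one] at this
    · have e : (∑ s : Fin (q + 1), HahnSeries.C (algebraMap R L ϖ) ^ (m + 1) * c s *
          qExpand L q (jqModC L) ^ (s : ℕ)) / HahnSeries.C (algebraMap R L ϖ) =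
          HahnSeries.C (algebraMap R L ϖ) ^ m * ∑ s, c s * qExpand L q (jqModC L) ^ (s : ℕ) := by
        rw [div_eq_iff hne, Finset.mul_sum, Finset.sum_mul]
        refine Finset.sum_congr rfl fun s _ => ?_
        rw [pow_succ]; ring
      rw [e]
      exact (hP.pow m).mul h1
    · have e : (∑ s : Fin (q + 1), qExpand L q (HahnSeries.C (algebraMap R L ϖ) ^ (m + 1) * c s) *
          jqModC L ^ (s : ℕ)) / HahnSeries.C (algebraMap R L ϖ) =
          HahnSeries.C (algebraMap R L ϖ) ^ m * ∑ s, qExpand L q (c s) * jqModC L ^ (s : ℕ) := by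
        rw [div_eq_iff hne, Finset.mul_sum, Finset.sum_mul]
        refine Finset.sum_congr rfl fun s _ => ?_
        rw [map_mul, map_pow, qExpand_C, pow_succ]; ring
      rw [e]
      exact (hP.pow m).mul h2

/-! ### dictionary `FF` ↔ series -/

theorem Coef_coe_sum (c : Fin (q + 1) → FF L N1) :
    ((∑ s, algebraMap (FF L N1) (FF L (q * N1)) (c s) * yF L q N1 ^ (s : ℕ) : FF L (q * N1)) :
      LaurentSeries L) =
      ∑ s, (c s : LaurentSeries L) * qExpand L q (jqModC L) ^ (s : ℕ) := by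
  rw [IntermediateField.coe_sum]
  refine Finset.sum_congr rfl fun s _ => ?_
  rw [IntermediateField.coe_mul, IntermediateField.coe_pow, coe_algebraMap_FF, coe_yF]

theorem Coef_coe_w_sum {w : FF L (q * N1) ≃ₐ[L] FF L (q * N1)} (hw : IsWq L q N1 w)
    (c : Fin (q + 1) → FF L N1) :
    ((w (∑ s, algebraMap (FF L N1) (FF L (q * N1)) (c s) * yF L q N1 ^ (s : ℕ)) :
      FF L (q * N1)) : LaurentSeries L) =
      ∑ s, qExpand L q (c s : LaurentSeries L) * jqModC L ^ (s : ℕ) := by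
  rw [map_sum, IntermediateField.coe_sum]
  refine Finset.sum_congr rfl fun s _ => ?_
  rw [map_mul, map_pow, IntermediateField.coe_mul, IntermediateField.coe_pow, hw.onF1, hw.map_yF]

theorem yF_mem : yF L q N1 ∈ gaussO R (q * N1) := by
  rw [mem_gaussO, coe_yF]
  exact Coef_isGInt_Y

theorem mem_of_sum_mem (hq : q.Prime) [CharP (IsLocalRing.ResidueField R) q]
    {w : FF L (q * N1) ≃ₐ[L] FF L (q * N1)} (hw : IsWq L q N1 w) (c : Fin (q + 1) → FF L N1)
    (h1 : ∑ s, algebraMap (FF L N1) (FF L (q * N1)) (c s) * yF L q N1 ^ (s : ℕ) ∈ gaussO R (q * N1))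
    (h2 : w (∑ s, algebraMap (FF L N1) (FF L (q * N1)) (c s) * yF L q N1 ^ (s : ℕ)) ∈
      gaussO R (q * N1)) : ∀ s, c s ∈ gaussO R N1 := by
  obtain ⟨ϖ, hϖ⟩ := IsDiscreteValuationRing.exists_irreducible R
  rw [mem_gaussO, Coef_coe_sum] at h1
  rw [mem_gaussO, Coef_coe_w_sum hw] at h2
  have hP : IsGInt R (HahnSeries.C (algebraMap R L ϖ) : LaurentSeries L) := Coef_isGInt_C ϖ
  choose m hm using fun s => exists_pow_mul_mem N1 hϖ (c s)
  have hc : ∀ s, IsGInt R (HahnSeries.C (algebraMap R L ϖ) ^ (Finset.univ.sup m) *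
      (c s : LaurentSeries L)) := by
    intro s
    have h3 := hm s
    rw [mem_gaussO, IntermediateField.coe_mul, IntermediateField.coe_pow, coe_algebraMap_C] at h3
    obtain ⟨k, hk⟩ := Nat.exists_eq_add_of_le (Finset.le_sup (f := m) (Finset.mem_univ s))
    rw [hk, add_comm, pow_add, mul_assoc]
    exact (hP.pow k).mul h3
  intro s
  rw [mem_gaussO]
  exact Coef_series hq hϖ _ (fun s => (c s : LaurentSeries L)) hc h1 h2 s

/-- the converse -/
theorem sum_mem {w : FF L (q * N1) ≃ₐ[L] FF L (q * N1)} (hw : IsWq L q N1 w)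
    (c : Fin (q + 1) → FF L N1) (hc : ∀ s, c s ∈ gaussO R N1) :
    ∑ s, algebraMap (FF L N1) (FF L (q * N1)) (c s) * yF L q N1 ^ (s : ℕ) ∈ gaussO R (q * N1) ∧
    w (∑ s, algebraMap (FF L N1) (FF L (q * N1)) (c s) * yF L q N1 ^ (s : ℕ)) ∈
      gaussO R (q * N1) := by
  constructor
  · rw [mem_gaussO, Coef_coe_sum]
    exact IsGInt.sum _ _ fun s _ => (mem_gaussO.1 (hc s)).mul (Coef_isGInt_Y.pow _)
  · rw [mem_gaussO, Coef_coe_w_sum hw]
    exact IsGInt.sum _ _ fun s _ =>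
      (isGInt_qExpand q (mem_gaussO.1 (hc s))).mul (Coef_isGInt_J.pow _)

include R in
theorem linearIndependent_yF (hq : q.Prime) [CharP (IsLocalRing.ResidueField R) q]
    {w : FF L (q * N1) ≃ₐ[L] FF L (q * N1)} (hw : IsWq L q N1 w) :
    LinearIndependent (FF L N1) (fun s : Fin (q + 1) => yF L q N1 ^ (s : ℕ)) := by
  obtain ⟨ϖ, hϖ⟩ := IsDiscreteValuationRing.exists_irreducible R
  rw [Fintype.linearIndependent_iff]
  intro c hc s
  by_contra hs
  obtain ⟨a, ha⟩ := exists_div_pow_not_mem N1 hϖ (c s) hs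
  apply ha
  have h0 : ∑ s, algebraMap (FF L N1) (FF L (q * N1)) (c s / algebraMap R (FF L N1) ϖ ^ a) *
      yF L q N1 ^ (s : ℕ) = 0 := by
    have e : ∑ s, algebraMap (FF L N1) (FF L (q * N1)) (c s / algebraMap R (FF L N1) ϖ ^ a) *
        yF L q N1 ^ (s : ℕ) =
        algebraMap (FF L N1) (FF L (q * N1)) (algebraMap R (FF L N1) ϖ ^ a)⁻¹ *
          ∑ s, c s • yF L q N1 ^ (s : ℕ) := by
      rw [Finset.mul_sum]
      refine Finset.sum_congr rfl fun s _ => ?_
      rw [Algebra.smul_def, div_eq_mul_inv, map_mul]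
      ring
    rw [e, hc, mul_zero]
  refine mem_of_sum_mem hq hw (fun s => c s / algebraMap R (FF L N1) ϖ ^ a) ?_ ?_ s
  · rw [h0]; exact (gaussO R (q * N1)).zero_mem
  · rw [h0, map_zero]; exact (gaussO R (q * N1)).zero_mem

end Fermat.Agent.GS.Inst
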