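import Fermat.Agent.GS.Inst.Span

/-!
# GS-INST, file Data: `TowerData` for `FF L N1 ⊆ FF L (q N1)`

* `integral`: `M = 𝒪_∞ ∩ w⁻¹ 𝒪_∞ = ⊕_{s ≤ q} 𝒪1 y^s` (`exists_repr`, `mem_of_sum_mem`, `sum_mem`) is a subring of
  `F` which is a finitely generated `𝒪1`-module, so all its elements are integral over `𝒪1`
  (`IsIntegral.of_mem_of_fg`); map the monic polynomial to `F1[X]`.
* `res`: `z = ∑ c_s y^s`, `c_s ∈ 𝒪1`; `f = ∑ c_s j^(q s)`; `gredFun y = J^q = gredFun (j^q)`.
-/

set_option autoImplicit false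
set_option synthInstance.maxHeartbeats 400000

noncomputable section

namespace Fermat.Agent.GS.Inst

open Fermat.Agent.GR Fermat.Agent.GR.E Fermat.Agent.GR.D.Vert ModularCurve IntermediateField

variable {L : Type} [Field L] [CharZero L] {R : ValuationSubring L} [IsDiscreteValuationRing R]
variable {q N1 : ℕ} [NeZero q] [NeZero N1]

theorem mem_gaussO_algebraMap_iff {L : Type*} [Field L] {R : ValuationSubring L}
    [IsDiscreteValuationRing R] {q N1 : ℕ} (x : FF L N1) :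
    algebraMap (FF L N1) (FF L (q * N1)) x ∈ gaussO R (q * N1) ↔ x ∈ gaussO R N1 := by
  rw [mem_gaussO, mem_gaussO, coe_algebraMap_FF]

theorem integral_of_mem (ι : L →+* ℂ) (hq : q.Prime) (hqN : ¬ q ∣ N1)
    [CharP (IsLocalRing.ResidueField R) q]
    {w : FF L (q * N1) ≃ₐ[L] FF L (q * N1)} (hw : IsWq L q N1 w) (z : FF L (q * N1))
    (h1 : z ∈ gaussO R (q * N1)) (h2 : w z ∈ gaussO R (q * N1)) :
    ∃ p : Polynomial (FF L N1), p.Monic ∧ (∀ i, p.coeff i ∈ gaussO R N1) ∧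
      Polynomial.aeval z p = 0 := by
  classical
  let alg : Algebra (gaussO R N1) (FF L (q * N1)) :=
    ((algebraMap (FF L N1) (FF L (q * N1))).comp (gaussO R N1).subtype).toAlgebra
  have halg : ∀ c : gaussO R N1, algebraMap (gaussO R N1) (FF L (q * N1)) c =
      algebraMap (FF L N1) (FF L (q * N1)) (c : FF L N1) := fun c => rfl
  have hli := linearIndependent_yF (R := R) hq hw
  -- the subalgebra `𝒪_∞ ∩ w⁻¹ 𝒪_∞`
  let S : Subalgebra (gaussO R N1) (FF L (q * N1)) :=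
    { carrier := {x | x ∈ gaussO R (q * N1) ∧ w x ∈ gaussO R (q * N1)}
      mul_mem' := fun {a b} ha hb => ⟨mul_mem ha.1 hb.1, by rw [map_mul]; exact mul_mem ha.2 hb.2⟩
      add_mem' := fun {a b} ha hb => ⟨add_mem ha.1 hb.1, by rw [map_add]; exact add_mem ha.2 hb.2⟩
      algebraMap_mem' := fun c => by
        refine ⟨?_, ?_⟩
        · rw [halg, mem_gaussO_algebraMap_iff]
          exact c.2
        · rw [halg, mem_gaussO, hw.onF1]
          exact isGInt_qExpand q (mem_gaussO.mp c.2) }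
  have hfg : S.toSubmodule.FG := by
    refine ⟨Finset.univ.image (fun s : Fin (q + 1) => yF L q N1 ^ (s : ℕ)), ?_⟩
    apply le_antisymm
    · rw [Submodule.span_le]
      intro x hx
      rw [Finset.coe_image, Set.mem_image] at hx
      obtain ⟨s, -, rfl⟩ := hx
      have hy : yF L q N1 ∈ S := by
        refine ⟨yF_mem, ?_⟩
        rw [mem_gaussO, hw.map_yF, ← baseFn_jqModC]
        exact isGInt_baseFn _
      exact pow_mem hy _
    · intro x hx
      obtain ⟨c, hc⟩ := exists_repr ι hq hqN hli x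
      have hx' : x ∈ gaussO R (q * N1) ∧ w x ∈ gaussO R (q * N1) := hx
      have hmem := mem_of_sum_mem hq hw c (hc ▸ hx'.1) (hc ▸ hx'.2)
      rw [hc]
      refine Submodule.sum_mem _ fun s _ => ?_
      have h1 : algebraMap (FF L N1) (FF L (q * N1)) (c s) * yF L q N1 ^ (s : ℕ) =
          (⟨c s, hmem s⟩ : gaussO R N1) • (yF L q N1 ^ (s : ℕ)) := by
        rw [Algebra.smul_def, halg]
      rw [h1]
      refine Submodule.smul_mem _ _ (Submodule.subset_span ?_)
      rw [Finset.coe_image]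
      exact ⟨s, Finset.mem_coe.2 (Finset.mem_univ s), rfl⟩
  obtain ⟨p0, hp0, hp0z⟩ := IsIntegral.of_mem_of_fg S hfg z ⟨h1, h2⟩
  refine ⟨p0.map (gaussO R N1).subtype, hp0.map _, fun i => ?_, ?_⟩
  · rw [Polynomial.coeff_map]
    exact (p0.coeff i).2
  · rw [Polynomial.aeval_def, Polynomial.eval₂_map]
    exact hp0z

/-- series level computation for `res_of_mem` -/
theorem Data_gredFun_sub (hq : q.Prime) [CharP (IsLocalRing.ResidueField R) q]
    (c : Fin (q + 1) → LaurentSeries L) (hc : ∀ s, IsGInt R (c s)) :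
    gredFun R ((∑ s : Fin (q + 1), c s * qExpand L q (jqModC L) ^ (s : ℕ)) +
        -(∑ s : Fin (q + 1), c s * (jqModC L ^ q) ^ (s : ℕ))) = 0 := by
  have hj1G : IsGInt R (jqModC L) := by
    rw [← baseFn_jqModC]
    exact isGInt_baseFn _
  have hyG : IsGInt R (qExpand L q (jqModC L)) := isGInt_qExpand q hj1G
  have hy : gredFun R (qExpand L q (jqModC L)) = gredFun R (jqModC L) ^ q := by
    rw [gredFun_qExpand q hj1G, ← baseFn_jqModC L, gredFun_baseFn', qExpand_baseFn q hq]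
  have hA : ∀ s ∈ (Finset.univ : Finset (Fin (q + 1))),
      IsGInt R (c s * qExpand L q (jqModC L) ^ (s : ℕ)) :=
    fun s _ => (hc s).mul (hyG.pow _)
  have hB : ∀ s ∈ (Finset.univ : Finset (Fin (q + 1))),
      IsGInt R (c s * (jqModC L ^ q) ^ (s : ℕ)) :=
    fun s _ => (hc s).mul ((hj1G.pow _).pow _)
  have hneg : ∀ x : LaurentSeries L, IsGInt R x → gredFun R (-x) = -gredFun R x := fun x hx => by
    have h1 := gredFun_add hx.neg hx
    rw [neg_add_cancel, gredFun_zero] at h1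
    exact eq_neg_of_add_eq_zero_left h1.symm
  rw [gredFun_add (IsGInt.sum _ _ hA) (IsGInt.sum _ _ hB).neg, hneg _ (IsGInt.sum _ _ hB),
    gredFun_sum _ _ hA, gredFun_sum _ _ hB, add_neg_eq_zero]
  refine Finset.sum_congr rfl fun s _ => ?_
  rw [gredFun_mul (hc s) (hyG.pow _),
    gredFun_mul (hc s) ((hj1G.pow _).pow _), gredFun_pow hyG,
    gredFun_pow (hj1G.pow _), gredFun_pow hj1G, hy]

/-- coercion computation for `res_of_mem` -/
theorem Data_coe_sub (c : Fin (q + 1) → FF L N1) (j1 : FF L N1)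
    (hj1 : (j1 : LaurentSeries L) = jqModC L) :
    (((∑ s : Fin (q + 1), algebraMap (FF L N1) (FF L (q * N1)) (c s) * yF L q N1 ^ (s : ℕ)) -
      algebraMap (FF L N1) (FF L (q * N1)) (∑ s : Fin (q + 1), c s * (j1 ^ q) ^ (s : ℕ)) :
      FF L (q * N1)) : LaurentSeries L) =
      (∑ s : Fin (q + 1), (c s : LaurentSeries L) * qExpand L q (jqModC L) ^ (s : ℕ)) +
        -(∑ s : Fin (q + 1), (c s : LaurentSeries L) * (jqModC L ^ q) ^ (s : ℕ)) := by
  have a1 : ((∑ s : Fin (q + 1), algebraMap (FF L N1) (FF L (q * N1)) (c s) * yF L q N1 ^ (s : ℕ) :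
      FF L (q * N1)) : LaurentSeries L) =
      ∑ s : Fin (q + 1), (c s : LaurentSeries L) * qExpand L q (jqModC L) ^ (s : ℕ) := by
    rw [IntermediateField.coe_sum]
    refine Finset.sum_congr rfl fun s _ => ?_
    rw [IntermediateField.coe_mul, IntermediateField.coe_pow, coe_algebraMap_FF, coe_yF]
  have a2 : ((∑ s : Fin (q + 1), c s * (j1 ^ q) ^ (s : ℕ) : FF L N1) : LaurentSeries L) =
      ∑ s : Fin (q + 1), (c s : LaurentSeries L) * (jqModC L ^ q) ^ (s : ℕ) := by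
    rw [IntermediateField.coe_sum]
    refine Finset.sum_congr rfl fun s _ => ?_
    rw [IntermediateField.coe_mul, IntermediateField.coe_pow, IntermediateField.coe_pow, hj1]
  rw [sub_eq_add_neg, IntermediateField.coe_add, IntermediateField.coe_neg, coe_algebraMap_FF, a1,
    a2]

theorem res_of_mem (ι : L →+* ℂ) (hq : q.Prime) (hqN : ¬ q ∣ N1)
    [CharP (IsLocalRing.ResidueField R) q] {ϖ : R} (hϖ : Irreducible ϖ)
    {w : FF L (q * N1) ≃ₐ[L] FF L (q * N1)} (hw : IsWq L q N1 w) (z : FF L (q * N1))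
    (h1 : z ∈ gaussO R (q * N1)) (h2 : w z ∈ gaussO R (q * N1)) :
    ∃ f ∈ gaussO R N1, (z - algebraMap (FF L N1) (FF L (q * N1)) f) /
      algebraMap R (FF L (q * N1)) ϖ ∈ gaussO R (q * N1) := by
  classical
  have hli := linearIndependent_yF (R := R) hq hw
  obtain ⟨c, hc⟩ := exists_repr ι hq hqN hli z
  subst hc
  have hmem := mem_of_sum_mem hq hw c h1 h2
  obtain ⟨j1, hj1c⟩ : ∃ j1 : FF L N1, (j1 : LaurentSeries L) = jqModC L :=
    ⟨⟨jqModC L, jqModC_mem_full L N1⟩, rfl⟩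
  have hj1G : IsGInt R (jqModC L) := by
    rw [← baseFn_jqModC]
    exact isGInt_baseFn _
  have hj1 : j1 ∈ gaussO R N1 := by
    rw [mem_gaussO, hj1c]
    exact hj1G
  have hf : ∑ s : Fin (q + 1), c s * (j1 ^ q) ^ (s : ℕ) ∈ gaussO R N1 :=
    _root_.sum_mem fun s _ => mul_mem (hmem s) (pow_mem (pow_mem hj1 _) _)
  refine ⟨∑ s : Fin (q + 1), c s * (j1 ^ q) ^ (s : ℕ), hf, ?_⟩
  have hfO : algebraMap (FF L N1) (FF L (q * N1)) (∑ s : Fin (q + 1), c s * (j1 ^ q) ^ (s : ℕ)) ∈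
      gaussO R (q * N1) := (mem_gaussO_algebraMap_iff _).mpr hf
  rw [div_mem_gaussO_iff (q * N1) hϖ (sub_mem h1 hfO), Data_coe_sub c j1 hj1c]
  exact Data_gredFun_sub hq _ fun s => mem_gaussO.mp (hmem s)

/-- (I1) -/
theorem towerData (ι : L →+* ℂ) (hq : q.Prime) (hqN : ¬ q ∣ N1)
    [CharP (IsLocalRing.ResidueField R) q] {ϖ : R} (hϖ : Irreducible ϖ)
    {w : FF L (q * N1) ≃ₐ[L] FF L (q * N1)} (hw : IsWq L q N1 w) :
    TowerData ϖ (gaussO R N1) (gaussO R (q * N1)) (w.restrictScalars R) where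
  gauss1 := gaussRing R N1 hϖ
  gauss := gaussRing R (q * N1) hϖ
  comap := mem_gaussO_algebraMap_iff
  invol := hw.invol
  integral := integral_of_mem ι hq hqN hw
  res := res_of_mem ι hq hqN hϖ hw
  disc := exists_div_pow_not_mem (q * N1) hϖ

end Fermat.Agent.GS.Inst
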