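import Fermat.Agent.GS.Inst.RedQ

/-!
# GS-INST, file RedS: the reduction map `gredFun` of `GR/D/Vert/Gauss.lean` and `coeffMap σ` (Galois action on the coefficients)

Everything is proved first for `x = embL R L y` (`y : LaurentSeries R`), then for
`x = y / s` via `gredFun_eq` (`IsGInt R x` unfolds to `∃ s y, redL R s ≠ 0 ∧ embL R L s * x = embL R L y`).
-/

set_option autoImplicit false
set_option synthInstance.maxHeartbeats 400000

noncomputable section

namespace Fermat.Agent.GS.Inst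

open Fermat.Agent.GR Fermat.Agent.GR.E Fermat.Agent.GR.D.Vert Fermat.Agent.S28 ModularCurve

variable {L : Type*} [Field L] {R : ValuationSubring L} [IsDiscreteValuationRing R]

local notation "𝕜" => IsLocalRing.ResidueField R

/-- the restriction of `σ` to `R`. -/
def RedS_act (σ : L ≃+* L) (hσ : ∀ x, σ x ∈ R ↔ x ∈ R) : R →+* R where
  toFun x := ⟨σ x, (hσ x).2 x.2⟩
  map_one' := Subtype.ext (map_one σ)
  map_mul' x y := Subtype.ext (map_mul σ (x : L) (y : L))
  map_zero' := Subtype.ext (map_zero σ)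
  map_add' x y := Subtype.ext (map_add σ (x : L) (y : L))

omit [IsDiscreteValuationRing R] in
theorem RedS_coe_act (σ : L ≃+* L) (hσ : ∀ x, σ x ∈ R ↔ x ∈ R) (a : R) :
    ((RedS_act σ hσ a : R) : L) = σ (a : L) := rfl

omit [IsDiscreteValuationRing R] in
theorem RedS_embL_act (σ : L ≃+* L) (hσ : ∀ x, σ x ∈ R ↔ x ∈ R) (y : LaurentSeries R) :
    embL R L (coeffMap (RedS_act σ hσ) y) = coeffMap (σ : L →+* L) (embL R L y) := by
  ext n
  simp only [coeffMap_coeff]
  rfl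

omit [IsDiscreteValuationRing R] in
theorem RedS_mem_nonunits_iff (a : L) : a ∈ R.nonunits ↔ a = 0 ∨ a⁻¹ ∉ R := by
  rw [ValuationSubring.mem_nonunits_iff, ← ValuationSubring.valuation_le_one_iff]
  rcases eq_or_ne a 0 with rfl | ha
  · simp
  · have hv : R.valuation a ≠ 0 := (map_ne_zero _).mpr ha
    rw [map_inv₀, not_le, one_lt_inv₀ (zero_lt_iff.mpr hv)]
    simp [ha]

omit [IsDiscreteValuationRing R] in
theorem RedS_residue_act_eq_zero_iff (σ : L ≃+* L) (hσ : ∀ x, σ x ∈ R ↔ x ∈ R) (a : R) :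
    IsLocalRing.residue R (RedS_act σ hσ a) = 0 ↔ IsLocalRing.residue R a = 0 := by
  rw [IsLocalRing.residue_eq_zero_iff, IsLocalRing.residue_eq_zero_iff,
    ← ValuationSubring.coe_mem_nonunits_iff, ← ValuationSubring.coe_mem_nonunits_iff,
    RedS_coe_act, RedS_mem_nonunits_iff, RedS_mem_nonunits_iff, ← map_inv₀, hσ,
    map_eq_zero_iff _ σ.injective]

omit [IsDiscreteValuationRing R] in
theorem RedS_redL_act_ne_zero (σ : L ≃+* L) (hσ : ∀ x, σ x ∈ R ↔ x ∈ R) {s : LaurentSeries R}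
    (hs : redL R s ≠ 0) : redL R (coeffMap (RedS_act σ hσ) s) ≠ 0 := by
  intro h0
  apply hs
  ext n
  have h1 := congrArg (fun f => f.coeff n) h0
  simp only [coeffMap_coeff, HahnSeries.coeff_zero] at h1
  rw [coeffMap_coeff, HahnSeries.coeff_zero]
  exact (RedS_residue_act_eq_zero_iff σ hσ _).1 h1

omit [IsDiscreteValuationRing R] in
theorem RedS_eq_act (σ : L ≃+* L) (hσ : ∀ x, σ x ∈ R ↔ x ∈ R) {x : LaurentSeries L}
    {s y : LaurentSeries R} (hy : embL R L s * x = embL R L y) :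
    embL R L (coeffMap (RedS_act σ hσ) s) * coeffMap (σ : L →+* L) x =
      embL R L (coeffMap (RedS_act σ hσ) y) := by
  rw [RedS_embL_act, RedS_embL_act, ← map_mul, hy]

theorem RedS_isGInt_coeffMap (σ : L ≃+* L) (hσ : ∀ x, σ x ∈ R ↔ x ∈ R) {x : LaurentSeries L}
    (hx : IsGInt R x) : IsGInt R (coeffMap (σ : L →+* L) x) := by
  obtain ⟨s, y, hs, hy⟩ := hx
  exact ⟨_, _, RedS_redL_act_ne_zero σ hσ hs, RedS_eq_act σ hσ hy⟩

theorem isGInt_coeffMap_iff (σ : L ≃+* L) (hσ : ∀ x, σ x ∈ R ↔ x ∈ R) (x : LaurentSeries L) :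
    IsGInt R (coeffMap (σ : L →+* L) x) ↔ IsGInt R x := by
  refine ⟨fun h => ?_, RedS_isGInt_coeffMap σ hσ⟩
  have hσ' : ∀ x, σ.symm x ∈ R ↔ x ∈ R := by
    intro a
    rw [← hσ (σ.symm a), RingEquiv.apply_symm_apply]
  have h1 := RedS_isGInt_coeffMap σ.symm hσ' h
  have h2 : coeffMap (σ.symm : L →+* L) (coeffMap (σ : L →+* L) x) = x := by
    ext n
    simp only [coeffMap_coeff]
    exact σ.symm_apply_apply _
  rwa [h2] at h1

theorem gredFun_coeffMap_of_inertia (σ : L ≃+* L) (hσ : ∀ x, σ x ∈ R ↔ x ∈ R)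
    (hin : ∀ x ∈ R, σ x - x ∈ R.nonunits) {x : LaurentSeries L} (hx : IsGInt R x) :
    gredFun R (coeffMap (σ : L →+* L) x) = gredFun R x := by
  obtain ⟨s, y, hs, hy⟩ := hx
  have key : ∀ f : LaurentSeries R, redL R (coeffMap (RedS_act σ hσ) f) = redL R f := by
    intro f
    ext n
    simp only [coeffMap_coeff]
    rw [← sub_eq_zero, ← map_sub, IsLocalRing.residue_eq_zero_iff,
      ← ValuationSubring.coe_mem_nonunits_iff]
    exact hin _ (f.coeff n).2
  rw [gredFun_eq (RedS_redL_act_ne_zero σ hσ hs) (RedS_eq_act σ hσ hy), gredFun_eq hs hy,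
    key, key]

theorem gredFun_qExpand_coeffMap_of_frob (q : ℕ) [NeZero q] (hq : q.Prime) [CharP 𝕜 q]
    (σ : L ≃+* L) (hσ : ∀ x, σ x ∈ R ↔ x ∈ R)
    (hfr : ∀ x ∈ R, σ x - x ^ q ∈ R.nonunits) {x : LaurentSeries L} (hx : IsGInt R x) :
    gredFun R (qExpand L q (coeffMap (σ : L →+* L) x)) = gredFun R x ^ q := by
  have : Fact q.Prime := ⟨hq⟩
  rw [gredFun_qExpand q (RedS_isGInt_coeffMap σ hσ hx), ← qExpand_coeffMap_frobenius]
  congr 1
  obtain ⟨s, y, hs, hy⟩ := hx
  have key : ∀ f : LaurentSeries R, redL R (coeffMap (RedS_act σ hσ) f) =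
      coeffMap (frobenius 𝕜 q) (redL R f) := by
    intro f
    ext n
    simp only [coeffMap_coeff]
    rw [frobenius_def, ← map_pow, ← sub_eq_zero, ← map_sub, IsLocalRing.residue_eq_zero_iff,
      ← ValuationSubring.coe_mem_nonunits_iff]
    exact hfr _ (f.coeff n).2
  rw [gredFun_eq (RedS_redL_act_ne_zero σ hσ hs) (RedS_eq_act σ hσ hy), gredFun_eq hs hy,
    key, key, map_div₀]

end Fermat.Agent.GS.Inst
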