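import Fermat.Agent.GS.Inst.Data
import Fermat.Agent.GS.Inst.RedS
import Fermat.Agent.GS.Tower.Frob

/-!
# GS-INST, file Frob: the Galois action on the coefficients: `TowerFrob`, `ChartAut`, inertia

All statements are translations of the lemmas of `RedS.lean` / `RedQ.lean` / `Wq.lean` through
`mem_gaussO`, `div_mem_gaussO_iff`, `coe_mapFFEquiv`, `IsWq.onF1`.
-/

set_option autoImplicit false
set_option synthInstance.maxHeartbeats 400000

noncomputable section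

namespace Fermat.Agent.GS.Inst

open Fermat.Agent.GR Fermat.Agent.GR.E Fermat.Agent.GR.D.Vert ModularCurve IntermediateField

variable {L : Type} [Field L] [CharZero L] {R : ValuationSubring L} [IsDiscreteValuationRing R]
variable {q N1 : ℕ} [NeZero q] [NeZero N1] [NeZero (q * N1)]

theorem mapFFEquiv_algebraMap {L : Type*} [Field L] {R : ValuationSubring L} (N : ℕ) (σ : L ≃+* L)
    (hσ : ∀ x, σ x ∈ R ↔ x ∈ R) (r : R) :
    mapFFEquiv σ N (algebraMap R (FF L N) r) = algebraMap R (FF L N) ⟨σ r, (hσ r).2 r.2⟩ := by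
  have h : ∀ r : R, ((algebraMap R (FF L N) r : FF L N) : LaurentSeries L) =
      HahnSeries.C (r : L) := by
    intro r
    rw [← GT.EMB.Middle_algebraMap_eq_C]
    rfl
  apply Subtype.ext
  rw [coe_mapFFEquiv, h, h, coeffMap_C]
  rfl

theorem mapFFEquiv_symm {L : Type*} [Field L] (N : ℕ) (σ : L ≃+* L) :
    (mapFFEquiv σ N).symm = mapFFEquiv σ.symm N := by
  rfl

theorem mapFFEquiv_trans {L : Type*} [Field L] (N : ℕ) (σ τ : L ≃+* L) :
    (mapFFEquiv σ N).trans (mapFFEquiv τ N) = mapFFEquiv (σ.trans τ) N := by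
  ext x : 1
  apply Subtype.ext
  rw [RingEquiv.trans_apply, coe_mapFFEquiv, coe_mapFFEquiv, coe_mapFFEquiv, coeffMap_coeffMap]
  rfl

theorem mapFFEquiv_mem_gaussO_iff {L : Type*} [Field L] {R : ValuationSubring L}
    [IsDiscreteValuationRing R] (N : ℕ) (σ : L ≃+* L) (hσ : ∀ x, σ x ∈ R ↔ x ∈ R) (x : FF L N) :
    mapFFEquiv σ N x ∈ gaussO R N ↔ x ∈ gaussO R N := by
  rw [mem_gaussO, mem_gaussO, coe_mapFFEquiv, isGInt_coeffMap_iff σ hσ]

theorem Frob_symm_mem {L : Type*} [Field L] {R : ValuationSubring L} (σ : L ≃+* L)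
    (hσ : ∀ x, σ x ∈ R ↔ x ∈ R) (x : L) : σ.symm x ∈ R ↔ x ∈ R := by
  rw [← hσ (σ.symm x), RingEquiv.apply_symm_apply]

/-- the reduction of a difference. -/
theorem Frob_gredFun_sub {L : Type*} [Field L] {R : ValuationSubring L}
    [IsDiscreteValuationRing R] (N : ℕ) {a b : FF L N} (ha : a ∈ gaussO R N)
    (hb : b ∈ gaussO R N) :
    gredFun R ((a - b : FF L N) : LaurentSeries L) =
      gredFun R (a : LaurentSeries L) - gredFun R (b : LaurentSeries L) := by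
  have h := map_sub (gredO R N) ⟨a, ha⟩ ⟨b, hb⟩
  rw [gredO_apply, gredO_apply, gredO_apply] at h
  exact h

theorem Frob_gredFun_pow {L : Type*} [Field L] {R : ValuationSubring L}
    [IsDiscreteValuationRing R] (N : ℕ) {a : FF L N} (ha : a ∈ gaussO R N) (k : ℕ) :
    gredFun R ((a ^ k : FF L N) : LaurentSeries L) = gredFun R (a : LaurentSeries L) ^ k := by
  have h := map_pow (gredO R N) ⟨a, ha⟩ k
  rw [gredO_apply, gredO_apply] at h
  exact h

theorem Frob_map_algebraMap {L : Type*} [Field L] {q N1 : ℕ} (σ : L ≃+* L) (f : FF L N1) :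
    mapFFEquiv σ (q * N1) (algebraMap (FF L N1) (FF L (q * N1)) f) =
      algebraMap (FF L N1) (FF L (q * N1)) (mapFFEquiv σ N1 f) := by
  apply Subtype.ext
  rw [coe_mapFFEquiv, coe_algebraMap_FF, coe_algebraMap_FF, coe_mapFFEquiv]

/-- (I2) -/
theorem towerFrob (ι : L →+* ℂ) (hq : q.Prime) (hqN : ¬ q ∣ N1)
    [CharP (IsLocalRing.ResidueField R) q] {ϖ : R} (hϖ : Irreducible ϖ)
    {w : FF L (q * N1) ≃ₐ[L] FF L (q * N1)} (hw : IsWQ L q N1 w)
    (σ : L ≃+* L) (hσ : ∀ x, σ x ∈ R ↔ x ∈ R) (hfr : ∀ x ∈ R, σ x - x ^ q ∈ R.nonunits) :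
    TowerFrob ϖ (gaussO R N1) (gaussO R (q * N1)) (w.restrictScalars R) q
      (mapFFEquiv σ (q * N1)) := by
  have hW : IsWq L q N1 w := isWq_of_isWQ ι hq hqN hw
  refine ⟨fun r => ⟨_, mapFFEquiv_algebraMap (q * N1) σ hσ r⟩, fun r => ?_,
    mapFFEquiv_mem_gaussO_iff (q * N1) σ hσ, fun x => mapFFEquiv_comm ι hq hqN hw σ x,
    fun f => ⟨_, Frob_map_algebraMap σ f⟩, fun f hf => ?_⟩
  · rw [mapFFEquiv_symm]
    exact ⟨_, mapFFEquiv_algebraMap (q * N1) σ.symm (Frob_symm_mem σ hσ) r⟩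
  · change (w (mapFFEquiv σ (q * N1) (algebraMap (FF L N1) (FF L (q * N1)) f)) -
      algebraMap (FF L N1) (FF L (q * N1)) f ^ q) / algebraMap R (FF L (q * N1)) ϖ ∈
      gaussO R (q * N1)
    have hf' : IsGInt R (f : LaurentSeries L) := mem_gaussO.1 hf
    have hcoe : ((w (mapFFEquiv σ (q * N1) (algebraMap (FF L N1) (FF L (q * N1)) f)) :
        FF L (q * N1)) : LaurentSeries L) =
        qExpand L q (coeffMap (σ : L →+* L) (f : LaurentSeries L)) := by
      rw [Frob_map_algebraMap, hW.onF1, coe_mapFFEquiv]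
    have hA : w (mapFFEquiv σ (q * N1) (algebraMap (FF L N1) (FF L (q * N1)) f)) ∈
        gaussO R (q * N1) := by
      rw [mem_gaussO, hcoe]
      exact isGInt_qExpand q ((isGInt_coeffMap_iff σ hσ _).2 hf')
    have hB0 : algebraMap (FF L N1) (FF L (q * N1)) f ∈ gaussO R (q * N1) :=
      (mem_gaussO_algebraMap_iff f).2 hf
    have hB : algebraMap (FF L N1) (FF L (q * N1)) f ^ q ∈ gaussO R (q * N1) := pow_mem hB0 q
    rw [div_mem_gaussO_iff (q * N1) hϖ (sub_mem hA hB), Frob_gredFun_sub (q * N1) hA hB,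
      Frob_gredFun_pow (q * N1) hB0, hcoe, coe_algebraMap_FF,
      gredFun_qExpand_coeffMap_of_frob q hq σ hσ hfr hf', sub_self]

/-- decomposition group -/
theorem chartAut (ι : L →+* ℂ) (hq : q.Prime) (hqN : ¬ q ∣ N1)
    {w : FF L (q * N1) ≃ₐ[L] FF L (q * N1)} (hw : IsWQ L q N1 w)
    (σ : L ≃+* L) (hσ : ∀ x, σ x ∈ R ↔ x ∈ R) (h : FF L (q * N1))
    (hh : mapFFEquiv σ (q * N1) h = h) :
    ChartAut R (gaussO R (q * N1)) (opp (gaussO R (q * N1)) (w.restrictScalars R)) h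
      (mapFFEquiv σ (q * N1)) := by
  refine ⟨fun r => ⟨_, mapFFEquiv_algebraMap (q * N1) σ hσ r⟩, fun r => ?_,
    mapFFEquiv_mem_gaussO_iff (q * N1) σ hσ, fun x => ?_, hh⟩
  · rw [mapFFEquiv_symm]
    exact ⟨_, mapFFEquiv_algebraMap (q * N1) σ.symm (Frob_symm_mem σ hσ) r⟩
  · rw [mem_opp, mem_opp]
    change w (mapFFEquiv σ (q * N1) x) ∈ gaussO R (q * N1) ↔ w x ∈ gaussO R (q * N1)
    rw [← mapFFEquiv_comm ι hq hqN hw σ x, mapFFEquiv_mem_gaussO_iff (q * N1) σ hσ]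

/-- inertia group -/
theorem inertia_div_mem {L : Type*} [Field L] {R : ValuationSubring L}
    [IsDiscreteValuationRing R] (N : ℕ) {ϖ : R} (hϖ : Irreducible ϖ)
    (σ : L ≃+* L) (hσ : ∀ x, σ x ∈ R ↔ x ∈ R) (hin : ∀ x ∈ R, σ x - x ∈ R.nonunits) :
    ∀ x ∈ gaussO R N, (mapFFEquiv σ N x - x) / algebraMap R (FF L N) ϖ ∈ gaussO R N := by
  intro x hx
  have hA : mapFFEquiv σ N x ∈ gaussO R N := (mapFFEquiv_mem_gaussO_iff N σ hσ x).2 hx
  rw [div_mem_gaussO_iff N hϖ (sub_mem hA hx), Frob_gredFun_sub N hA hx, coe_mapFFEquiv,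
    gredFun_coeffMap_of_inertia σ hσ hin (mem_gaussO.1 hx), sub_self]

/-- functions with rational coefficients are fixed. -/
theorem mapFFEquiv_baseFn {L : Type*} [Field L] (N : ℕ) (σ : L ≃+* L) (H : LaurentSeries ℤ)
    (hmem : baseFn L H ∈ FF L N) :
    mapFFEquiv σ N ⟨baseFn L H, hmem⟩ = ⟨baseFn L H, hmem⟩ := by
  apply Subtype.ext
  rw [coe_mapFFEquiv]
  change coeffMap (σ : L →+* L) (baseFn L H) = baseFn L H
  unfold baseFn
  have h : (σ : L →+* L).comp (Int.castRingHom L) = Int.castRingHom L := RingHom.ext_int _ _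
  rw [coeffMap_coeffMap, h]

end Fermat.Agent.GS.Inst
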