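import Fermat.Agent.GR.E.Model
import Fermat.Agent.Lib.Frobenius

/-!
# GS-INST, file FrobLift: a Frobenius lift on a finite normal extension `L / ℚ` inside `Q̄`

`Lib/Frobenius.lean`: `exists_isFrobeniusAt_of_liesOverPrime` gives `φ : Q̄ ≃ₐ[ℚ] Q̄` with `A.IsFrobeniusAt φ q`;
`σ := (φ.restrictNormal L).toRingEquiv` (`AlgEquiv.restrictNormal_commutes`).  `φ` lies in the decomposition group
(`φ x ∈ A ↔ x ∈ A`) and acts on the residue field of `A` by `x ↦ x^q`, i.e. `φ x - x^q ∈ A.nonunits` for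
`x ∈ A` (see how GR-F / GS-FW unfold `IsFrobeniusAt`, e.g. grep `IsFrobeniusAt` in `Fermat/Agent/GR/F`).
-/

set_option autoImplicit false
set_option synthInstance.maxHeartbeats 400000

noncomputable section

namespace Fermat.Agent.GS.Inst

open Fermat.Agent.GR Fermat.Agent.GR.E IntermediateField
open scoped Pointwise

theorem FrobLift_sub_pow_mem (A : ValuationSubring Qb) (ℓ : ℕ)
    (σ : Qb ≃ₐ[ℚ] Qb) (hσ : A.IsFrobeniusAt σ ℓ) (x : Qb) (hx : x ∈ A) :
    σ x - x ^ ℓ ∈ A.nonunits := by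
  obtain ⟨hdec, h⟩ := hσ
  have h1 := h (IsLocalRing.residue A ⟨x, hx⟩)
  rw [← IsLocalRing.ResidueField.residue_smul, ← map_pow, ← sub_eq_zero, ← map_sub,
    IsLocalRing.residue_eq_zero_iff] at h1
  have h2 := (ValuationSubring.mem_nonunits_iff_exists_mem_maximalIdeal).mpr ⟨_, h1⟩
  exact h2

theorem FrobLift_mem_iff (A : ValuationSubring Qb) (σ : Qb ≃ₐ[ℚ] Qb)
    (hσ : σ ∈ A.decompositionSubgroup ℚ) (x : Qb) : σ x ∈ A ↔ x ∈ A := by
  rw [MulAction.mem_stabilizer_iff] at hσ
  constructor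
  · intro h
    rw [← hσ, ValuationSubring.mem_pointwise_smul_iff_inv_smul_mem] at h
    simpa using h
  · intro h
    rw [← hσ, ValuationSubring.mem_pointwise_smul_iff_inv_smul_mem]
    simpa using h

theorem FrobLift_mem_nonunits_comap {K K' : Type*} [Field K] [Field K'] (φ : K →+* K')
    (A : ValuationSubring K') (x : K) : x ∈ (A.comap φ).nonunits ↔ φ x ∈ A.nonunits := by
  rw [ValuationSubring.mem_nonunits_iff_or, ValuationSubring.mem_nonunits_iff_or,
    ValuationSubring.mem_comap, map_inv₀, map_eq_zero]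

/-- existence of a Frobenius lift on a finite normal extension. -/
theorem exists_frob_lift (A : ValuationSubring Qb) {q : ℕ} (hq : q.Prime) (hA : A.LiesOverPrime q)
    (L : IntermediateField ℚ Qb) [FiniteDimensional ℚ L] [Normal ℚ L] :
    ∃ σ : L ≃+* L, (∀ x, σ x ∈ A.comap (algebraMap L Qb) ↔ x ∈ A.comap (algebraMap L Qb)) ∧
      ∀ x ∈ A.comap (algebraMap L Qb), σ x - x ^ q ∈ (A.comap (algebraMap L Qb)).nonunits := by
  obtain ⟨φ, hφ⟩ := Fermat.Agent.Lib.Frobenius.exists_isFrobeniusAt_of_liesOverPrime A hq hA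
  have hcomm : ∀ x : L, algebraMap L Qb ((φ.restrictNormal L) x) = φ (algebraMap L Qb x) :=
    fun x => AlgEquiv.restrictNormal_commutes φ L x
  refine ⟨(φ.restrictNormal L).toRingEquiv, ?_, ?_⟩
  · intro x
    rw [ValuationSubring.mem_comap, ValuationSubring.mem_comap]
    change algebraMap L Qb ((φ.restrictNormal L) x) ∈ A ↔ _
    rw [hcomm]
    exact FrobLift_mem_iff A φ hφ.mem_decompositionSubgroup _
  · intro x hx
    rw [FrobLift_mem_nonunits_comap, map_sub, map_pow]
    change algebraMap L Qb ((φ.restrictNormal L) x) - _ ∈ _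
    rw [hcomm]
    exact FrobLift_sub_pow_mem A q φ hφ _ hx

end Fermat.Agent.GS.Inst
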