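import Mathlib
import Fermat.Prelude.Def_ModularCurve_X0ModL
import Fermat.Agent.GR.F.Frob

/-!
# GS-INST, file Ind: the key independence (blueprint (2))

`k` a field of characteristic `q`, `J = jqModC k`.  `J^q = qExpand q J` (the coefficients of `J` lie
in `𝔽_q`); `1, J, …, J^(q-1)` are linearly independent over the image of `qExpand q` (the orders are
distinct modulo `q`).  So `h2` gives `c_s = 0` for `0 < s < q` and `c_0 = - c_q J`; then `h1` reads
`c_q (J^(q²) - J) = 0`.
-/

set_option autoImplicit false

namespace Fermat.Agent.GS.Inst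

open ModularCurve

theorem Ind_order_eq {k : Type*} [Field k] {x : LaurentSeries k} {m : ℤ} (h : x.coeff m ≠ 0)
    (h' : ∀ n < m, x.coeff n = 0) : x.order = m := by
  have hx0 : x ≠ 0 := by
    rintro rfl
    exact h rfl
  apply le_antisymm (HahnSeries.order_le_of_coeff_ne_zero h)
  by_contra hcon
  rw [not_le] at hcon
  exact hx0 (HahnSeries.coeff_order_eq_zero.mp (h' _ hcon))

theorem Ind_order_qExpand {k : Type*} [Field k] (q : ℕ) [NeZero q] {a : LaurentSeries k}
    (ha : a ≠ 0) : (qExpand k q a).order = (q : ℤ) * a.order := by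
  have hq : (0 : ℤ) < q := by exact_mod_cast Nat.pos_of_ne_zero (NeZero.ne q)
  apply Ind_order_eq
  · rw [qExpand_coeff_mul]
    exact fun h0 => ha (HahnSeries.coeff_order_eq_zero.mp h0)
  · intro n hn
    by_cases hd : (q : ℤ) ∣ n
    · obtain ⟨n', rfl⟩ := hd
      rw [qExpand_coeff_mul]
      exact HahnSeries.coeff_eq_zero_of_lt_order (lt_of_mul_lt_mul_left hn hq.le)
    · exact qExpand_coeff_of_not_dvd q a hd

theorem Ind_order_pow (k : Type*) [Field k] (s : ℕ) : (jqModC k ^ s).order = -(s : ℤ) := by
  apply Ind_order_eq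
  · rw [coeff_jqModC_pow_self]
    exact one_ne_zero
  · intro n hn
    exact coeff_jqModC_pow_of_lt k hn

theorem Ind_pow_ne_zero (k : Type*) [Field k] (s : ℕ) : jqModC k ^ s ≠ 0 :=
  pow_ne_zero s (jqModC_ne_zero_of_nontrivial k)

/-- `1, J, …, J^(q-1)` are linearly independent over the image of `qExpand q`. -/
theorem Ind_indep {k : Type*} [Field k] (q : ℕ) [NeZero q] (a : Fin q → LaurentSeries k)
    (h : ∑ s, qExpand k q (a s) * jqModC k ^ (s : ℕ) = 0) : a = 0 := by
  classical
  by_contra hne
  have hS : (Finset.univ.filter fun s : Fin q => a s ≠ 0).Nonempty := by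
    by_contra hcon
    rw [Finset.not_nonempty_iff_eq_empty, Finset.filter_eq_empty_iff] at hcon
    apply hne
    funext s
    simpa using hcon (Finset.mem_univ s)
  have hord : ∀ s : Fin q, a s ≠ 0 → (qExpand k q (a s) * jqModC k ^ (s : ℕ)).order
      = (q : ℤ) * (a s).order - (s : ℕ) := by
    intro s hs
    have h1 : qExpand k q (a s) ≠ 0 := (map_ne_zero_iff _ (qExpand_injective q)).mpr hs
    rw [HahnSeries.order_mul h1 (Ind_pow_ne_zero k _), Ind_order_qExpand q hs, Ind_order_pow]
    ring
  obtain ⟨s0, hs0, hmin⟩ := Finset.exists_min_image _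
    (fun s : Fin q => (q : ℤ) * (a s).order - (s : ℕ)) hS
  rw [Finset.mem_filter] at hs0
  have hcoeff := congrArg (fun x : LaurentSeries k => x.coeff ((q : ℤ) * (a s0).order - (s0 : ℕ))) h
  simp only [HahnSeries.coeff_sum, HahnSeries.coeff_zero] at hcoeff
  rw [Finset.sum_eq_single s0] at hcoeff
  · have h1 : qExpand k q (a s0) * jqModC k ^ (s0 : ℕ) ≠ 0 :=
      mul_ne_zero ((map_ne_zero_iff _ (qExpand_injective q)).mpr hs0.2) (Ind_pow_ne_zero k _)
    have h2 : (qExpand k q (a s0) * jqModC k ^ (s0 : ℕ)).coeff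
        (qExpand k q (a s0) * jqModC k ^ (s0 : ℕ)).order ≠ 0 :=
      fun h0 => h1 (HahnSeries.coeff_order_eq_zero.mp h0)
    rw [hord s0 hs0.2] at h2
    exact h2 hcoeff
  · intro s _ hs
    by_cases has : a s = 0
    · rw [has, map_zero, zero_mul, HahnSeries.coeff_zero]
    · apply HahnSeries.coeff_eq_zero_of_lt_order
      rw [hord s has]
      have hle := hmin s (Finset.mem_filter.mpr ⟨Finset.mem_univ s, has⟩)
      refine lt_of_le_of_ne hle ?_
      intro heq
      apply hs
      have h3 : ((s : ℕ) : ℤ) - (s0 : ℕ) = 0 := by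
        apply Int.eq_zero_of_abs_lt_dvd (m := (q : ℤ))
        · exact ⟨(a s).order - (a s0).order, by linarith⟩
        · have hs1 := s.2
          have hs2 := s0.2
          rw [abs_lt]
          constructor <;> omega
      apply Fin.ext
      omega
  · intro h0
    exact absurd (Finset.mem_univ s0) h0

theorem Ind_pow_char {k : Type*} [Field k] (q : ℕ) [NeZero q] (hq : q.Prime) [CharP k q] :
    jqModC k ^ q = qExpand k q (jqModC k) := by
  have : Fact q.Prime := ⟨hq⟩
  rw [GR.pow_char_eq_qExpand q (jqModC k), coeffMap_jqModC]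

theorem ind_core {k : Type*} [Field k] (q : ℕ) [NeZero q] (hq : q.Prime) [CharP k q]
    (c : Fin (q + 1) → LaurentSeries k)
    (h1 : ∑ s, c s * (jqModC k ^ q) ^ (s : ℕ) = 0)
    (h2 : ∑ s, qExpand k q (c s) * jqModC k ^ (s : ℕ) = 0) : c = 0 := by
  classical
  have hJ := Ind_pow_char (k := k) q hq
  rw [Fin.sum_univ_castSucc] at h1 h2
  simp only [Fin.val_castSucc, Fin.val_last] at h1 h2
  -- independence
  have hA : (fun s : Fin q => c s.castSucc + if s = 0 then c (Fin.last q) * jqModC k else 0) = 0 := by
    apply Ind_indep q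
    have : ∀ s : Fin q,
        qExpand k q (c s.castSucc + if s = 0 then c (Fin.last q) * jqModC k else 0)
          * jqModC k ^ (s : ℕ)
        = qExpand k q (c s.castSucc) * jqModC k ^ (s : ℕ)
          + if s = 0 then qExpand k q (c (Fin.last q)) * jqModC k ^ q else 0 := by
      intro s
      by_cases hs : s = 0
      · subst hs
        simp only [if_true, map_add, map_mul, ← hJ, Fin.val_zero, pow_zero, mul_one]
      · simp only [if_neg hs, add_zero]
    rw [Finset.sum_congr rfl fun s _ => this s, Finset.sum_add_distrib, Finset.sum_ite_eq']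
    simpa using h2
  have hA' : ∀ s : Fin q, c s.castSucc + (if s = 0 then c (Fin.last q) * jqModC k else 0) = 0 :=
    fun s => congrFun hA s
  have hc0 : c (0 : Fin q).castSucc = -(c (Fin.last q) * jqModC k) := by
    have := hA' 0
    rw [if_pos rfl] at this
    exact eq_neg_of_add_eq_zero_left this
  have hcs : ∀ s : Fin q, s ≠ 0 → c s.castSucc = 0 := by
    intro s hs
    have := hA' s
    rwa [if_neg hs, add_zero] at this
  -- the first relation
  rw [Finset.sum_eq_single (0 : Fin q)] at h1
  · rw [hc0] at h1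
    simp only [Fin.val_zero, pow_zero, mul_one] at h1
    have h3 : c (Fin.last q) * ((jqModC k ^ q) ^ q - jqModC k) = 0 := by
      linear_combination h1
    have h4 : (jqModC k ^ q) ^ q - jqModC k ≠ 0 := by
      intro h0
      have h5 := congrArg HahnSeries.order (sub_eq_zero.mp h0)
      rw [← pow_mul, Ind_order_pow] at h5
      have h6 := Ind_order_pow k 1
      rw [pow_one] at h6
      rw [h6] at h5
      have hq2 := hq.two_le
      push_cast at h5
      nlinarith
    have hlast : c (Fin.last q) = 0 := (mul_eq_zero.mp h3).resolve_right h4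
    funext s
    refine Fin.lastCases hlast (fun s => ?_) s
    by_cases hs : s = 0
    · subst hs
      rw [hc0, hlast, zero_mul, neg_zero]
      rfl
    · exact hcs s hs
  · intro s _ hs
    rw [hcs s hs, zero_mul]
  · intro h0
    exact absurd (Finset.mem_univ _) h0

end Fermat.Agent.GS.Inst
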