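import Fermat.Agent.GS.Inst.Nodal
import Fermat.Agent.GS.Inst.FrobLift
import Fermat.Agent.GR.D.Top.Main

/-!
# GS-INST, file Main: the nodal model (`GS.HasNodalModel`, interface of `GS/Conc/Model.lean`)

`hasNodalModel_of`: `mem` from `IsGen.mem` + `GT.EMB.FF_mono`; `transc`, `finDim` as in `GR.D.Top.hasModel_of`
(`IsGen.transcendental`, `GR.D.finiteDimensional_FF_of_transcendental`); `model`: `M.model L hdvr` gives `𝒪1`; instances as in
`hasModel_of` (`D.Top.charP_residueField`, `Algebra.IsAlgebraic L Qb`); `nodalModelData` with `exists_frob_lift`.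
-/

set_option autoImplicit false
set_option synthInstance.maxHeartbeats 400000

noncomputable section

namespace Fermat.Agent.GS.Inst

open Fermat.Agent.GR Fermat.Agent.GR.E Fermat.Agent.GR.D.Vert ModularCurve IntermediateField

/-- from the smooth model at level `N1` to the nodal model at level `q N1`. -/
theorem hasNodalModel_of {r : ℕ} [NeZero r] {H : LaurentSeries ℤ} (hH : IsHaupt r H) {q N1 : ℕ}
    [NeZero N1] (hq : q.Prime) (hqN : ¬ q ∣ N1) (hrN : r ∣ N1) (A : ValuationSubring Qb)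
    (hA : A.LiesOverPrime q) (M : HasModel A N1 H) : HasNodalModel A q N1 H := by
  have : NeZero q := ⟨hq.ne_zero⟩
  have : NeZero (q * N1) := ⟨mul_ne_zero hq.ne_zero (NeZero.ne N1)⟩
  have hmem : ∀ (K : Type) [Field K] [CharZero K], baseFn K H ∈ FF K (q * N1) := fun K _ _ =>
    GT.EMB.FF_mono K (hrN.trans (Dvd.intro_left q rfl)) (hH.mem K)
  have htr : Transcendental Qb (⟨baseFn Qb H, hmem Qb⟩ : FF Qb (q * N1)) := by
    intro halg
    exact hH.toIsGen.transcendental Qb (IsAlgebraic.algHom (FF Qb (q * N1)).val halg)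
  refine ⟨hmem, htr, D.finiteDimensional_FF_of_transcendental Qb (q * N1) htr, ?_⟩
  intro L _ _ hdvr w hw
  have := D.Top.charP_residueField A q hq hA L
  have : Algebra.IsAlgebraic ℚ Qb := AlgebraicClosure.isAlgebraic ℚ
  have : Algebra.IsAlgebraic L Qb := Algebra.IsAlgebraic.tower_top (K := ℚ) L
  obtain ⟨𝒪1, M1⟩ := M.model L hdvr
  exact ⟨_, _, nodalModelData hH hq hqN hrN (M.mem L) (hmem L) M1 hw (exists_frob_lift A hq hA L)⟩

/-- EXPORT (`q` odd). -/
theorem hasNodalModel_h2 {q N1 : ℕ} [NeZero N1] (hq : q.Prime) (hqN : ¬ q ∣ N1) (h2 : 2 ∣ N1)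
    (A : ValuationSubring Qb) (hA : A.LiesOverPrime q) :
    HasNodalModel A q N1 Fermat.Agent.Lib.Hauptmodul.h2 :=
  hasNodalModel_of isHaupt_h2 hq hqN h2 A hA (D.Top.hasModel_h2 N1 h2 q hq hqN A hA)

/-- EXPORT (`q ≠ 3`). -/
theorem hasNodalModel_h3 {q N1 : ℕ} [NeZero N1] (hq : q.Prime) (hqN : ¬ q ∣ N1) (h3 : 3 ∣ N1)
    (A : ValuationSubring Qb) (hA : A.LiesOverPrime q) :
    HasNodalModel A q N1 Fermat.Agent.Lib.Hauptmodul.h3 :=
  hasNodalModel_of isHaupt_h3 hq hqN h3 A hA (D.Top.hasModel_h3 N1 h3 q hq hqN A hA)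

end Fermat.Agent.GS.Inst
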