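import Fermat.Agent.GS.Inst.Frob
import Fermat.Agent.GS.Inst.ChartH
import Fermat.Agent.GS.Tower.Main

/-!
# GS-INST, file Nodal: assembly of `GS.NodalModelData` over `(L, R)`

`T := towerData ι hq hqN hϖ (isWq_of_isWQ ι hq hqN hw)`, `Φ := towerFrob … σ`, `Ct := towerChart_baseFn …`.
* `spec := Vert.gaussO_spec`, `opp := mem_opp`, `gauss₁ := Vert.gaussRing`, `gauss₂ := gaussRing_opp`;
* `mem₁ … inv_mem₂`: `TowerChart.t_mem`, `TowerChart.wt_mem` (Tower/Basic) for `t` and `t⁻¹`;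
* `nodal0/1 := nodalChart_of_tower hϖ hq.one_lt T Φ Ct hφ` (`hφ` from `mapFFEquiv_baseFn`), after rewriting
  `algebraMap t = ⟨baseFn L H, hm⟩` (`Subtype.ext`), `algebraMap t⁻¹ = (…)⁻¹` (`map_inv₀`);
* `aut := chartAut`; `inert := frobLike_one` (`inertia_div_mem`, `ChartAut.map_mem_chart`);
* `frob := TowerChart.frobLike` + `mapFFEquiv_trans`; `finite := Ct.fin`; `transc`: `IsGen.transcendental`.
-/

set_option autoImplicit false
set_option synthInstance.maxHeartbeats 400000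

noncomputable section

namespace Fermat.Agent.GS.Inst

open Fermat.Agent.GR Fermat.Agent.GR.E Fermat.Agent.GR.D.Vert ModularCurve IntermediateField

variable {L : Type} [Field L] [CharZero L] [Algebra L Qb] [Algebra.IsAlgebraic L Qb]
variable {R : ValuationSubring L} [IsDiscreteValuationRing R]
variable {q N1 : ℕ} [NeZero q] [NeZero N1] [NeZero (q * N1)]

/-- the nodal model over `(L, R)`, given a Frobenius lift. -/
theorem nodalModelData {r : ℕ} [NeZero r] {H : LaurentSeries ℤ} (hH : IsHaupt r H)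
    (hq : q.Prime) (hqN : ¬ q ∣ N1) (hrN : r ∣ N1) [CharP (IsLocalRing.ResidueField R) q]
    (hm1 : baseFn L H ∈ FF L N1) (hm : baseFn L H ∈ FF L (q * N1))
    {𝒪1 : ValuationSubring (FF L N1)} (M : ModelData R N1 ⟨baseFn L H, hm1⟩ 𝒪1)
    {w : FF L (q * N1) ≃ₐ[L] FF L (q * N1)} (hw : IsWQ L q N1 w)
    (hfrob : ∃ σ : L ≃+* L, (∀ x, σ x ∈ R ↔ x ∈ R) ∧ ∀ x ∈ R, σ x - x ^ q ∈ R.nonunits) :
    NodalModelData R q (q * N1) ⟨baseFn L H, hm⟩ w (gaussO R (q * N1))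
      (opp (gaussO R (q * N1)) (w.restrictScalars R)) := by
  obtain ⟨σ₀, hσ₀, hfr₀⟩ := hfrob
  obtain ⟨ι₀⟩ : Nonempty (Qb →+* ℂ) := S24.nonempty_iotaC
  let ι : L →+* ℂ := ι₀.comp (algebraMap L Qb)
  have hWq : IsWq L q N1 w := isWq_of_isWQ ι hq hqN hw
  have ht : algebraMap (FF L N1) (FF L (q * N1)) (⟨baseFn L H, hm1⟩ : FF L N1) =
      (⟨baseFn L H, hm⟩ : FF L (q * N1)) := Subtype.ext (coe_algebraMap_FF _)
  have hti : algebraMap (FF L N1) (FF L (q * N1)) (⟨baseFn L H, hm1⟩ : FF L N1)⁻¹ =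
      (⟨baseFn L H, hm⟩ : FF L (q * N1))⁻¹ := by rw [map_inv₀, ht]
  have T : ∀ ϖ : R, Irreducible ϖ →
      TowerData ϖ (gaussO R N1) (gaussO R (q * N1)) (w.restrictScalars R) :=
    fun ϖ hϖ => towerData ι hq hqN hϖ hWq
  have Ct : ∀ ϖ : R, Irreducible ϖ →
      TowerChart ϖ (gaussO R N1) (gaussO R (q * N1)) (w.restrictScalars R) q
        (⟨baseFn L H, hm1⟩ : FF L N1) ∧
      TowerChart ϖ (gaussO R N1) (gaussO R (q * N1)) (w.restrictScalars R) q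
        (⟨baseFn L H, hm1⟩ : FF L N1)⁻¹ :=
    fun ϖ hϖ => towerChart_baseFn hH hq hqN hrN hm1 M hw hϖ
  have Φ : ∀ σ : L ≃+* L, (∀ x, σ x ∈ R ↔ x ∈ R) → (∀ x ∈ R, σ x - x ^ q ∈ R.nonunits) →
      ∀ ϖ : R, Irreducible ϖ →
      TowerFrob ϖ (gaussO R N1) (gaussO R (q * N1)) (w.restrictScalars R) q
        (mapFFEquiv σ (q * N1)) :=
    fun σ hσ hfr ϖ hϖ => towerFrob ι hq hqN hϖ hw σ hσ hfr
  have hfix : ∀ σ : L ≃+* L, mapFFEquiv σ (q * N1) (⟨baseFn L H, hm⟩ : FF L (q * N1)) =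
      ⟨baseFn L H, hm⟩ := fun σ => mapFFEquiv_baseFn (q * N1) σ H hm
  have hfixi : ∀ σ : L ≃+* L, mapFFEquiv σ (q * N1) (⟨baseFn L H, hm⟩ : FF L (q * N1))⁻¹ =
      (⟨baseFn L H, hm⟩ : FF L (q * N1))⁻¹ := fun σ => by rw [map_inv₀, hfix]
  have haut : ∀ σ : L ≃+* L, (∀ x, σ x ∈ R ↔ x ∈ R) →
      ChartAut R (gaussO R (q * N1)) (opp (gaussO R (q * N1)) (w.restrictScalars R))
        (⟨baseFn L H, hm⟩ : FF L (q * N1)) (mapFFEquiv σ (q * N1)) :=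
    fun σ hσ => chartAut ι hq hqN hw σ hσ _ (hfix σ)
  obtain ⟨ϖ₀, hϖ₀⟩ := IsDiscreteValuationRing.exists_irreducible R
  have htr : Transcendental L (⟨baseFn L H, hm⟩ : FF L (q * N1)) := by
    intro halg
    exact hH.toIsGen.transcendental L (IsAlgebraic.algHom (FF L (q * N1)).val halg)
  have hn0 : ∀ ϖ : R, Irreducible ϖ → NodalChart ϖ (gaussO R (q * N1))
      (opp (gaussO R (q * N1)) (w.restrictScalars R))
      (chart R ({(⟨baseFn L H, hm⟩ : FF L (q * N1))} : Set (FF L (q * N1)))) := by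
    intro ϖ hϖ
    have := nodalChart_of_tower hϖ hq.one_lt (T ϖ hϖ) (Φ σ₀ hσ₀ hfr₀ ϖ hϖ) (Ct ϖ hϖ).1
      (by rw [ht]; exact hfix σ₀)
    rwa [ht] at this
  have hn1 : ∀ ϖ : R, Irreducible ϖ → NodalChart ϖ (gaussO R (q * N1))
      (opp (gaussO R (q * N1)) (w.restrictScalars R))
      (chart R ({(⟨baseFn L H, hm⟩ : FF L (q * N1))⁻¹} : Set (FF L (q * N1)))) := by
    intro ϖ hϖ
    have := nodalChart_of_tower hϖ hq.one_lt (T ϖ hϖ) (Φ σ₀ hσ₀ hfr₀ ϖ hϖ) (Ct ϖ hϖ).2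
      (by rw [hti]; exact hfixi σ₀)
    rwa [hti] at this
  refine
    { spec := gaussO_spec R (q * N1)
      opp := fun u => Iff.rfl
      gauss₁ := fun ϖ hϖ => gaussRing R (q * N1) hϖ
      gauss₂ := fun ϖ hϖ => gaussRing_opp (gaussRing R (q * N1) hϖ)
      ne_zero := fun h0 => htr (h0 ▸ isAlgebraic_zero)
      mem₁ := ?_
      inv_mem₁ := ?_
      mem₂ := ?_
      inv_mem₂ := ?_
      transc := D.Top.transcendental_valuationSubring R htr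
      nodal0 := hn0
      nodal1 := hn1
      aut := haut
      inert := ?_
      frob := ?_
      finite := ?_ }
  · have := (Ct ϖ₀ hϖ₀).1.t_mem (T ϖ₀ hϖ₀)
    rwa [ht] at this
  · have := (Ct ϖ₀ hϖ₀).2.t_mem (T ϖ₀ hϖ₀)
    rwa [hti] at this
  · have := (Ct ϖ₀ hϖ₀).1.wt_mem (T ϖ₀ hϖ₀)
    rw [ht] at this
    exact this
  · have := (Ct ϖ₀ hϖ₀).2.wt_mem (T ϖ₀ hϖ₀)
    rw [hti] at this
    exact this
  · intro σ hσ hin ϖ hϖ
    refine ⟨frobLike_one (hn0 ϖ hϖ).le₁ (fun x hx => (haut σ hσ).map_mem_chart ?_ hx)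
      (inertia_div_mem (q * N1) hϖ σ hσ hin),
      frobLike_one (hn1 ϖ hϖ).le₁ (fun x hx => (haut σ hσ).map_mem_chart ?_ hx)
      (inertia_div_mem (q * N1) hϖ σ hσ hin)⟩
    · intro s hs
      rw [Set.mem_singleton_iff] at hs ⊢
      rw [hs, hfix]
    · intro s hs
      rw [Set.mem_singleton_iff] at hs ⊢
      rw [hs, hfixi]
  · intro σ hσ hfr ϖ hϖ
    constructor
    · have := (Ct ϖ hϖ).1.frobLike hϖ (T ϖ hϖ) (Φ σ hσ hfr ϖ hϖ) (by rw [ht]; exact hfix σ)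
      rwa [ht, mapFFEquiv_trans] at this
    · have := (Ct ϖ hϖ).2.frobLike hϖ (T ϖ hϖ) (Φ σ hσ hfr ϖ hϖ) (by rw [hti]; exact hfixi σ)
      rwa [hti, mapFFEquiv_trans] at this
  · have := (Ct ϖ₀ hϖ₀).1.fin
    rwa [ht] at this

end Fermat.Agent.GS.Inst
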