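import Fermat.Agent.GS.Inst.Main
import Fermat.Agent.GS.Inputs

/-!
# GS-INST, file Out: the frozen target `GS.InstOut` of `GS/Inputs.lean`
-/

set_option autoImplicit false

namespace Fermat.Agent.GS.Inst

/-- OUTPUT of GS-INST. -/
theorem instOut : InstOut := by
  intro A q N1 hN1 hq hqN haux hA
  haveI : NeZero N1 := ⟨hN1⟩
  unfold auxPrime at haux
  split_ifs at haux with h
  · exact ⟨_, hasNodalModel_h3 hq hqN haux A hA⟩
  · exact ⟨_, hasNodalModel_h2 hq hqN haux A hA⟩

end Fermat.Agent.GS.Inst
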