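import Fermat.Agent.GS.Tower.Defs
import Fermat.Agent.GS.Conc.Model
import Fermat.Agent.GR.D.Vert.GaussO
import Fermat.Agent.GT.EMB.Level

/-!
# Project GS, layer `Inst` (concrete instantiation of `GS/Tower`), file Setup

`F1 = FF L N1 ⊆ F = FF L (q * N1)`; the algebra structure, the generator `y = j(t^q)`, and what we
use of the Atkin-Lehner involution.
-/

set_option autoImplicit false
set_option synthInstance.maxHeartbeats 400000

noncomputable section

namespace Fermat.Agent.GS.Inst

open Fermat.Agent.GR Fermat.Agent.GR.E ModularCurve IntermediateField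

variable (L : Type*) [Field L] (q N1 : ℕ)

theorem FF_le : FF L N1 ≤ FF L (q * N1) := GT.EMB.FF_mono L (Dvd.intro_left q rfl)

/-- the inclusion `FF L N1 → FF L (q * N1)`. -/
def incl : FF L N1 →ₐ[L] FF L (q * N1) := IntermediateField.inclusion (FF_le L q N1)

variable {L q N1}

@[simp] theorem coe_incl (x : FF L N1) : ((incl L q N1 x : FF L (q * N1)) : LaurentSeries L) = x :=
  IntermediateField.coe_inclusion (FF_le L q N1) x

/-- `FF L (q * N1)` as an algebra over `FF L N1` (scoped instance). -/
scoped instance algFF : Algebra (FF L N1) (FF L (q * N1)) := (incl L q N1).toRingHom.toAlgebra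

theorem algebraMap_eq_incl (x : FF L N1) : algebraMap (FF L N1) (FF L (q * N1)) x = incl L q N1 x :=
  rfl

@[simp] theorem coe_algebraMap_FF (x : FF L N1) :
    ((algebraMap (FF L N1) (FF L (q * N1)) x : FF L (q * N1)) : LaurentSeries L) = x :=
  coe_incl x

scoped instance towerL : IsScalarTower L (FF L N1) (FF L (q * N1)) :=
  IsScalarTower.of_algebraMap_eq fun _ => rfl

scoped instance towerR (R : ValuationSubring L) : IsScalarTower R (FF L N1) (FF L (q * N1)) :=
  IsScalarTower.of_algebraMap_eq fun _ => rfl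

/-- What we use of the Atkin-Lehner involution `w_q`. -/
structure IsWq (L : Type*) [Field L] (q N1 : ℕ) [NeZero q]
    (w : FF L (q * N1) ≃ₐ[L] FF L (q * N1)) : Prop where
  invol : ∀ x, w (w x) = x
  onF1 : ∀ x : FF L N1, ((w (algebraMap (FF L N1) (FF L (q * N1)) x) : FF L (q * N1)) :
    LaurentSeries L) = qExpand L q (x : LaurentSeries L)

/-- `y = j(t^q)`. -/
def yF (L : Type*) [Field L] (q N1 : ℕ) [NeZero q] : FF L (q * N1) :=
  ⟨qExpand L q (jqModC L), jqModCd_mem_full L (q * N1) (Dvd.intro N1 rfl)⟩

@[simp] theorem coe_yF [NeZero q] : ((yF L q N1 : FF L (q * N1)) : LaurentSeries L) =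
    qExpand L q (jqModC L) := rfl

end Fermat.Agent.GS.Inst
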