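import Fermat.Agent.GS.Inst.Coef
import Fermat.Agent.GR.A.DegreeC
import Fermat.Agent.GR.E.BR10

/-!
# GS-INST, file Span: `[FF L (q N1) : FF L N1] = q + 1`, so `1, y, …, y^q` is a basis

`finrank_FF`: copy `GR/E/BR10.lean` (`relfinrank_FF_mul_prime`) with `GR.A.finrank_FF ι N`
(valid for every `L ↪ ℂ`) instead of `S24.finrank_FF`; tower law over `L(j)`;
`S24.card_cosets`, `S20.AR.dedekindPsi_mul_of_not_dvd`.
`exists_repr`: a linearly independent family of cardinality `finrank` spans
(`LinearIndependent.span_eq_top_of_card_eq_finrank'`).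
-/

set_option autoImplicit false
set_option linter.unusedSectionVars false
set_option synthInstance.maxHeartbeats 400000

noncomputable section

namespace Fermat.Agent.GS.Inst

open Fermat.Agent.GR Fermat.Agent.GR.E Fermat.Agent.GR.D.Vert ModularCurve IntermediateField

/-- the degree of an inclusion of intermediate fields is the relative degree. -/
theorem Span_finrank_eq_relfinrank {K E : Type*} [Field K] [Field E] [Algebra K E]
    {A B : IntermediateField K E} (h : A ≤ B) [Algebra A B]
    (halg : ∀ a : A, ((algebraMap A B a : B) : E) = a) :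
    Module.finrank A B = A.relfinrank B := by
  rw [IntermediateField.relfinrank_eq_finrank_of_le h]
  let e : B ≃+* IntermediateField.extendScalars h :=
    { toFun := fun x => ⟨x.1, x.2⟩
      invFun := fun x => ⟨x.1, x.2⟩
      left_inv := fun _ => rfl
      right_inv := fun _ => rfl
      map_mul' := fun _ _ => rfl
      map_add' := fun _ _ => rfl }
  refine Algebra.finrank_eq_of_equiv_equiv (RingEquiv.refl A) e ?_
  ext a
  exact (halg a).symm

variable {L : Type} [Field L] [CharZero L] {q N1 : ℕ} [NeZero q] [NeZero N1]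

/-- The degree of `FF L N` over `L(j)`, in relative form. -/
theorem Span_relfinrank_j (ι : L →+* ℂ) (N : ℕ) [NeZero N] :
    (L⟮jqModC L⟯).relfinrank (FF L N) = dedekindPsi N := by
  rw [← Fermat.Agent.S24.card_cosets, Fermat.Agent.GR.A.finrank_FF ι N,
    ← relfinrank_top_right, ← relfinrank_map_map _ _ (FF L N).val]
  congr 1
  · rw [adjoin_map, Set.image_singleton]
    rfl
  · rw [← AlgHom.fieldRange_eq_map, fieldRange_val]

theorem Span_j_le (N : ℕ) : L⟮jqModC L⟯ ≤ FF L N := by
  rw [adjoin_simple_le_iff]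
  exact (Fermat.Agent.GR.A.jF L N).2

theorem Span_relfinrank (ι : L →+* ℂ) (hq : q.Prime) (hqN : ¬ q ∣ N1) :
    (FF L N1).relfinrank (FF L (q * N1)) = q + 1 := by
  have h1 := relfinrank_mul_relfinrank (Span_j_le (L := L) N1) (FF_le L q N1)
  rw [Span_relfinrank_j ι, Span_relfinrank_j ι,
    Fermat.Agent.S20.AR.dedekindPsi_mul_of_not_dvd hq (NeZero.ne N1) hqN, mul_comm] at h1
  have h2 : dedekindPsi N1 ≠ 0 := by
    rw [← Fermat.Agent.S24.card_cosets]
    exact Nat.card_pos.ne'
  exact Nat.eq_of_mul_eq_mul_right (Nat.pos_of_ne_zero h2) h1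

theorem finrank_FF (ι : L →+* ℂ) (hq : q.Prime) (hqN : ¬ q ∣ N1) :
    Module.finrank (FF L N1) (FF L (q * N1)) = q + 1 := by
  rw [Span_finrank_eq_relfinrank (FF_le L q N1) (fun a => coe_algebraMap_FF a)]
  exact Span_relfinrank ι hq hqN

theorem finiteDimensional_FF (ι : L →+* ℂ) (hq : q.Prime) (hqN : ¬ q ∣ N1) :
    FiniteDimensional (FF L N1) (FF L (q * N1)) := by
  apply Module.finite_of_finrank_pos
  rw [finrank_FF ι hq hqN]
  exact Nat.succ_pos q

theorem exists_repr (ι : L →+* ℂ) (hq : q.Prime) (hqN : ¬ q ∣ N1)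
    (hli : LinearIndependent (FF L N1) (fun s : Fin (q + 1) => yF L q N1 ^ (s : ℕ)))
    (z : FF L (q * N1)) : ∃ c : Fin (q + 1) → FF L N1,
      z = ∑ s, algebraMap (FF L N1) (FF L (q * N1)) (c s) * yF L q N1 ^ (s : ℕ) := by
  have hfd := finiteDimensional_FF (q := q) (N1 := N1) ι hq hqN
  have hspan := hli.span_eq_top_of_card_eq_finrank' (by
    rw [Fintype.card_fin, finrank_FF ι hq hqN])
  have hz : z ∈ Submodule.span (FF L N1)
      (Set.range fun s : Fin (q + 1) => yF L q N1 ^ (s : ℕ)) := by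
    rw [hspan]
    trivial
  obtain ⟨c, hc⟩ := (Submodule.mem_span_range_iff_exists_fun (FF L N1)).1 hz
  refine ⟨c, ?_⟩
  rw [← hc]
  exact Finset.sum_congr rfl fun s _ => Algebra.smul_def _ _

end Fermat.Agent.GS.Inst
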